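import Fermat.Agent.EC.Degree.XRep

/-!
# Composition, surjectivity and kernels
-/

set_option autoImplicit false
set_option linter.unusedSectionVars false

namespace Fermat.Agent.EC.Degree

open WeierstrassCurve Polynomial Filter

variable {K : Type*} [Field K] [DecidableEq K] [IsAlgClosed K] {W : WeierstrassCurve K}
  [W.IsElliptic]

local notation "Pt" => W.toAffine.Point

/-- `P` is affine with good abscissa. -/
def Good (S : Set K) (P : W.toAffine.Point) : Prop :=
  ∃ x y h, P = Affine.Point.some x y h ∧ x ∉ S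

lemma finite_points_over {S : Set K} (hS : S.Finite) :
    {P : Pt | ¬ Good S P}.Finite := by
  have key : ∀ x : K, {P : Pt | ∃ y h, P = Affine.Point.some x y h}.Finite := by
    intro x
    obtain ⟨y₀, h₀⟩ := exists_y (W := W) x
    refine ({Affine.Point.some x y₀ h₀, -Affine.Point.some x y₀ h₀} : Set Pt).toFinite.subset ?_
    rintro _ ⟨y, h, rfl⟩
    rcases (Affine.Point.X_eq_iff (h₁ := h) (h₂ := h₀)).1 rfl with e | e <;> simp [e]
  refine ((Set.finite_singleton (0 : Pt)).union (hS.biUnion fun x _ => key x)).subset ?_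
  rintro (_ | ⟨x, y, h⟩) hP
  · left; rfl
  · right
    simp only [Set.mem_iUnion, Set.mem_setOf_eq]
    by_contra hx
    push Not at hx
    exact hP ⟨x, y, h, rfl, fun hxS => hx x hxS y h rfl⟩

lemma infinite_points : (Set.univ : Set Pt).Infinite := by
  intro hfin
  have h2 : ((fun P : Pt => (xv P).1) '' Set.univ).Finite := hfin.image _
  refine Set.infinite_univ (h2.subset fun x _ => ?_)
  obtain ⟨y, h⟩ := exists_y (W := W) x
  exact ⟨Affine.Point.some x y h, trivial, rfl⟩

lemma exists_good {S : Set K} (hS : S.Finite) (R : Pt) :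
    ∃ Q : Pt, Good S Q ∧ Good S (R - Q) := by
  have hbad : ({P : Pt | ¬ Good S P} ∪ (fun P => R - P) '' {P : Pt | ¬ Good S P}).Finite :=
    (finite_points_over hS).union ((finite_points_over hS).image _)
  obtain ⟨Q, -, hQ⟩ := (infinite_points (W := W)).exists_notMem_finset hbad.toFinset
  rw [Set.Finite.mem_toFinset] at hQ
  simp only [Set.mem_union, Set.mem_setOf_eq, Set.mem_image, not_or, not_exists, not_and,
    not_not] at hQ
  exact ⟨Q, hQ.1, by_contra fun h => hQ.2 _ h (sub_sub_cancel R Q)⟩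

lemma top_of_good_mem {S : Set K} (hS : S.Finite) {H : AddSubgroup Pt}
    (h : ∀ P, Good S P → P ∈ H) : H = ⊤ := by
  refine (AddSubgroup.eq_top_iff' H).2 fun R => ?_
  obtain ⟨Q, h1, h2⟩ := exists_good hS R
  simpa using H.add_mem (h Q h1) (h _ h2)

theorem eq_zero_of_xDeg_zero {f : AddMonoid.End Pt} (h : XDeg f 0) : f = 0 := by
  obtain ⟨N, D, ⟨hc, hev⟩, hd⟩ := h
  have hN : N = C (N.coeff 0) := eq_C_of_natDegree_eq_zero (by omega)
  have hD : D = C (D.coeff 0) := eq_C_of_natDegree_eq_zero (by omega)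
  rw [eventually_cofinite] at hev
  set S := {x : K | ¬ ∀ (y : K) (h : W.toAffine.Nonsingular x y),
    N.eval x * (xv (f (Affine.Point.some x y h))).2 =
      D.eval x * (xv (f (Affine.Point.some x y h))).1} with hS
  have hgood : ∀ P, Good S P →
      N.coeff 0 * (xv (f P)).2 = D.coeff 0 * (xv (f P)).1 := by
    rintro _ ⟨x, y, hy, rfl, hx⟩
    simp only [hS, Set.mem_setOf_eq, not_not] at hx
    have := hx y hy
    rwa [hN, hD, eval_C, eval_C] at this
  by_cases hD0 : D.coeff 0 = 0
  · -- all good points map to `0`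
    have hN0 : N.coeff 0 ≠ 0 := fun e => eval_not_both hc 0
      ⟨by rw [hN, e, map_zero, eval_zero], by rw [hD, hD0, map_zero, eval_zero]⟩
    refine AddMonoidHom.ext fun R => ?_
    suffices hk : ∀ P, Good S P → f P = 0 by
      obtain ⟨Q, h1, h2⟩ := exists_good hev R
      show f R = 0
      rw [← add_sub_cancel Q R]
      exact (map_add f _ _).trans (by rw [hk Q h1, hk _ h2, add_zero])
    intro P hP
    have := hgood P hP
    rw [hD0, zero_mul, mul_eq_zero, or_iff_right hN0] at this
    show f P = 0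
    rcases hfP : f P with _ | ⟨x', y', h'⟩
    · rfl
    · rw [hfP, xv_some] at this; exact absurd this one_ne_zero
  · -- all good points map to two values
    exfalso
    obtain ⟨y₀, h₀⟩ := exists_y (W := W) (N.coeff 0 / D.coeff 0)
    set R := Affine.Point.some _ y₀ h₀
    have himg : ∀ P, Good S P → f P = R ∨ f P = -R := by
      intro P hP
      have := hgood P hP
      rcases hfP : f P with _ | ⟨x', y', h'⟩
      · rw [hfP, ← Affine.Point.zero_def, xv_zero] at this
        simp at this; exact absurd this.symm hD0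
      · rw [hfP, xv_some] at this
        simp only [mul_one] at this
        have hx' : x' = N.coeff 0 / D.coeff 0 := by rw [eq_div_iff hD0, this]; ring
        subst hx'
        exact (Affine.Point.X_eq_iff (h₁ := h') (h₂ := h₀)).1 rfl
    -- the image is finite, so the kernel has finite index and contains a good point
    have hfin : (Set.range f).Finite := by
      refine ((({R, -R} : Set Pt).toFinite).image2 (· + ·) ({R, -R} : Set Pt).toFinite).subset ?_
      rintro _ ⟨P, rfl⟩
      obtain ⟨Q, h1, h2⟩ := exists_good hev P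
      exact ⟨f Q, by simpa using himg Q h1, f (P - Q), by simpa using himg _ h2,
        (map_add f Q (P - Q)).symm.trans (by rw [add_sub_cancel])⟩
    obtain ⟨z, -, hz⟩ : ∃ z ∈ Set.range f, {P : Pt | f P = z}.Infinite := by
      by_contra hh
      push Not at hh
      exact infinite_points (W := W) ((hfin.biUnion hh).subset fun P _ =>
        Set.mem_biUnion ⟨P, rfl⟩ rfl)
    obtain ⟨P₀, hP₀⟩ := hz.nonempty
    have hker : {P : Pt | f P = 0}.Infinite := by
      intro hk
      exact hz ((hk.image (fun P => P + P₀)).subset fun P hP => ⟨P - P₀, by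
        simp only [Set.mem_setOf_eq] at hP hP₀ ⊢; rw [map_sub, hP, hP₀, sub_self],
        sub_add_cancel P P₀⟩)
    obtain ⟨P, hP, hP'⟩ := hker.exists_notMem_finset (finite_points_over (W := W) hev).toFinset
    rw [Set.Finite.mem_toFinset, Set.mem_setOf_eq, not_not] at hP'
    have hR := himg P hP'
    rw [show f P = 0 from hP] at hR
    rcases hR with e | e
    · exact Affine.Point.some_ne_zero h₀ e.symm
    · exact Affine.Point.some_ne_zero h₀ (neg_eq_zero.1 e.symm)

lemma denom_ne_zero {N D : K[X]} (hc : IsCoprime N D) (hd : 0 < max N.natDegree D.natDegree) :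
    D ≠ 0 := by
  rintro rfl
  rw [natDegree_zero, natDegree_eq_zero_of_isUnit (isCoprime_zero_right.1 hc)] at hd
  simp at hd

lemma sub_C_mul_ne_zero {N D : K[X]} (hc : IsCoprime N D)
    (hd : 0 < max N.natDegree D.natDegree) (c : K) : N - C c * D ≠ 0 := by
  intro e
  rw [sub_eq_zero] at e
  subst e
  have hu : IsUnit D := hc.isUnit_of_dvd' (dvd_mul_left _ _) dvd_rfl
  have h1 := natDegree_eq_zero_of_isUnit hu
  have h2 := natDegree_C_mul_le c D
  omega

/-- Abscissae whose image lies in a finite set form a finite set. -/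
lemma finite_preimage {N D : K[X]} (hc : IsCoprime N D) (hd : 0 < max N.natDegree D.natDegree)
    {S : Set K} (hS : S.Finite) : {x : K | D.eval x = 0 ∨ N.eval x / D.eval x ∈ S}.Finite := by
  refine ((finite_setOf_isRoot (denom_ne_zero hc hd)).union
    (hS.biUnion fun c _ => finite_setOf_isRoot (sub_C_mul_ne_zero hc hd c))).subset ?_
  intro x hx
  by_cases h0 : D.eval x = 0
  · exact Or.inl h0
  · right
    simp only [Set.mem_iUnion]
    exact ⟨_, hx.resolve_left h0, by
      show (N - C _ * D).IsRoot x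
      rw [IsRoot.def, eval_sub, eval_mul, eval_C, div_mul_cancel₀ _ h0, sub_self]⟩

/-- Homogeneous substitution of a pair. -/
noncomputable def hsub (P : K[X]) (d : ℕ) (A B : K[X]) : K[X] :=
  ∑ i ∈ Finset.range (d + 1), C (P.coeff i) * (A ^ i * B ^ (d - i))

lemma eval_hsub (P : K[X]) (d : ℕ) (A B : K[X]) (x : K) :
    (hsub P d A B).eval x =
      ∑ i ∈ Finset.range (d + 1), P.coeff i * (A.eval x ^ i * B.eval x ^ (d - i)) := by
  simp [hsub, eval_finset_sum]

lemma eval_hsub_of_ne {P : K[X]} {d : ℕ} (hP : P.natDegree ≤ d) (A B : K[X]) {x : K}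
    (hB : B.eval x ≠ 0) :
    (hsub P d A B).eval x = B.eval x ^ d * P.eval (A.eval x / B.eval x) := by
  rw [eval_hsub, P.eval_eq_sum_range' (by omega : P.natDegree < d + 1), Finset.mul_sum]
  refine Finset.sum_congr rfl fun i hi => ?_
  rw [Finset.mem_range] at hi
  rw [div_pow, show B.eval x ^ d = B.eval x ^ i * B.eval x ^ (d - i) by
    rw [← pow_add, Nat.add_sub_cancel' (by omega)]]
  field_simp

lemma hom_not_both {N D : K[X]} (hc : IsCoprime N D) {α β : K} (h : ¬(α = 0 ∧ β = 0)) :
    let d := max N.natDegree D.natDegree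
    ¬((∑ i ∈ Finset.range (d + 1), N.coeff i * (α ^ i * β ^ (d - i))) = 0 ∧
      (∑ i ∈ Finset.range (d + 1), D.coeff i * (α ^ i * β ^ (d - i))) = 0) := by
  intro d
  have key : ∀ P : K[X], P.natDegree ≤ d →
      (∑ i ∈ Finset.range (d + 1), P.coeff i * (α ^ i * β ^ (d - i))) =
        if β = 0 then P.coeff d * α ^ d else β ^ d * P.eval (α / β) := by
    intro P hP
    split_ifs with hβ
    · rw [Finset.sum_range_succ, hβ, Nat.sub_self, pow_zero, mul_one]
      rw [Finset.sum_eq_zero, zero_add]
      intro i hi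
      rw [Finset.mem_range] at hi
      rw [zero_pow (by omega), mul_zero, mul_zero]
    · have := eval_hsub_of_ne (P := P) hP (C α) (C β) (x := 0) (by simpa using hβ)
      simpa [eval_hsub] using this
  rw [key N (le_max_left _ _), key D (le_max_right _ _)]
  split_ifs with hβ
  · have hα : α ≠ 0 := fun e => h ⟨e, hβ⟩
    rintro ⟨h1, h2⟩
    exact coeff_top_not_both hc ⟨(mul_eq_zero.1 h1).resolve_right (pow_ne_zero _ hα),
      (mul_eq_zero.1 h2).resolve_right (pow_ne_zero _ hα)⟩
  · rintro ⟨h1, h2⟩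
    exact eval_not_both hc (α / β) ⟨(mul_eq_zero.1 h1).resolve_left (pow_ne_zero _ hβ),
      (mul_eq_zero.1 h2).resolve_left (pow_ne_zero _ hβ)⟩

lemma hsub_top (P : K[X]) (d : ℕ) {A B : K[X]} {e : ℕ} (hA : A.natDegree ≤ e)
    (hB : B.natDegree ≤ e) :
    (hsub P d A B).natDegree ≤ d * e ∧ (hsub P d A B).coeff (d * e) =
      ∑ i ∈ Finset.range (d + 1), P.coeff i * (A.coeff e ^ i * B.coeff e ^ (d - i)) := by
  have hterm : ∀ i ∈ Finset.range (d + 1),
      (C (P.coeff i) * (A ^ i * B ^ (d - i))).natDegree ≤ d * e ∧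
      (C (P.coeff i) * (A ^ i * B ^ (d - i))).coeff (d * e) =
        P.coeff i * (A.coeff e ^ i * B.coeff e ^ (d - i)) := by
    intro i hi
    rw [Finset.mem_range] at hi
    obtain ⟨h1, h2⟩ := coeff_prod (p := A ^ i) (q := B ^ (d - i)) (m := i * e) (n := (d - i) * e)
      (natDegree_pow_le.trans (Nat.mul_le_mul_left _ hA))
      (natDegree_pow_le.trans (Nat.mul_le_mul_left _ hB))
    rw [show i * e + (d - i) * e = d * e by rw [← add_mul, Nat.add_sub_cancel' (by omega)]] at h1 h2
    refine ⟨(natDegree_C_mul_le _ _).trans h1, ?_⟩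
    rw [coeff_C_mul, h2, coeff_pow_of_natDegree_le hA, coeff_pow_of_natDegree_le hB]
  refine ⟨natDegree_sum_le_of_forall_le _ _ fun i hi => (hterm i hi).1, ?_⟩
  rw [hsub, finset_sum_coeff]
  exact Finset.sum_congr rfl fun i hi => (hterm i hi).2

/-- Degrees multiply under composition. -/
theorem XDeg.comp {f g : AddMonoid.End Pt} {a b : ℕ} (hf : XDeg f a) (hg : XDeg g b) :
    XDeg (f * g) (a * b) := by
  rcases Nat.eq_zero_or_pos b with rfl | hb
  · rw [eq_zero_of_xDeg_zero hg, mul_zero, mul_zero]; exact xDeg_zero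
  obtain ⟨N₁, D₁, h₁, rfl⟩ := hf
  obtain ⟨N₂, D₂, h₂, rfl⟩ := hg
  set a := max N₁.natDegree D₁.natDegree with ha
  set b := max N₂.natDegree D₂.natDegree with hb'
  have hc : IsCoprime (hsub N₁ a N₂ D₂) (hsub D₁ a N₂ D₂) := by
    rw [Polynomial.isCoprime_iff_aeval_ne_zero_of_isAlgClosed _ K]
    intro x
    by_contra hh
    push Not at hh
    simp only [coe_aeval_eq_eval, eval_hsub] at hh
    exact hom_not_both h₁.1 (eval_not_both h₂.1 x) hh
  refine ⟨_, _, ⟨hc, ?_⟩, ?_⟩
  · have hbad := finite_preimage h₂.1 hb (eventually_cofinite.1 h₁.2)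
    filter_upwards [h₂.2, hbad.eventually_cofinite_notMem] with x hx hxb y h
    simp only [Set.mem_setOf_eq, not_or, not_not] at hxb
    obtain ⟨hD, h1⟩ := hxb
    have e2 := hx y h
    rcases hP : g (Affine.Point.some x y h) with _ | ⟨x', y', h'⟩
    · rw [hP, ← Affine.Point.zero_def, xv_zero] at e2
      simp at e2; exact absurd e2.symm hD
    · rw [hP, xv_some] at e2
      simp only [mul_one] at e2
      have hx' : N₂.eval x / D₂.eval x = x' := by rw [div_eq_iff hD, e2]; ring
      rw [hx'] at h1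
      have e3 := h1 y' h'
      rw [eval_hsub_of_ne (le_max_left _ _) _ _ hD, eval_hsub_of_ne (le_max_right _ _) _ _ hD, hx']
      show _ * (xv (f (g (Affine.Point.some x y h)))).2 = _ * (xv (f (g (Affine.Point.some x y h)))).1
      rw [hP, mul_assoc, e3, mul_assoc]
  · obtain ⟨n1, n2⟩ := hsub_top N₁ a (A := N₂) (B := D₂) (e := b) (le_max_left _ _) (le_max_right _ _)
    obtain ⟨m1, m2⟩ := hsub_top D₁ a (A := N₂) (B := D₂) (e := b) (le_max_left _ _) (le_max_right _ _)
    refine le_antisymm (max_le n1 m1) ?_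
    by_contra hlt
    rw [not_le, max_lt_iff] at hlt
    refine hom_not_both h₁.1 (coeff_top_not_both h₂.1) ⟨?_, ?_⟩
    · rw [← n2]; exact coeff_eq_zero_of_natDegree_lt hlt.1
    · rw [← m2]; exact coeff_eq_zero_of_natDegree_lt hlt.2

theorem XDegZ.comp {f g : AddMonoid.End Pt} {a b : ℤ} (hf : XDegZ f a) (hg : XDegZ g b) :
    XDegZ (f * g) (a * b) := by
  obtain ⟨a', ha, rfl⟩ := hf
  obtain ⟨b', hb, rfl⟩ := hg
  exact ⟨a' * b', ha.comp hb, by push_cast; ring⟩

/-- A nonzero-degree endomorphism has a fibre over almost every abscissa. -/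
lemma fibre_lemma {f : AddMonoid.End Pt} {N D : K[X]} (h : IsXRep f N D)
    (hd : 0 < max N.natDegree D.natDegree) :
    ∀ᶠ c in cofinite, (N - C c * D).natDegree = max N.natDegree D.natDegree ∧
      ∀ (x y : K) (hy : W.toAffine.Nonsingular x y),
        (N - C c * D).eval x = 0 ↔ ∃ y' h', f (Affine.Point.some x y hy) = Affine.Point.some c y' h' := by
  set S := {x : K | ¬ ∀ (y : K) (h : W.toAffine.Nonsingular x y),
    N.eval x * (xv (f (Affine.Point.some x y h))).2 =
      D.eval x * (xv (f (Affine.Point.some x y h))).1} with hSdef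
  have hS : S.Finite := eventually_cofinite.1 h.2
  set d := max N.natDegree D.natDegree with hdd
  have htop : {c : K | N.coeff d - c * D.coeff d = 0}.Finite := by
    by_cases hD : D.coeff d = 0
    · have hN : N.coeff d ≠ 0 := fun e => coeff_top_not_both h.1 ⟨e, hD⟩
      simp [hD, hN]
    · refine (Set.finite_singleton (N.coeff d / D.coeff d)).subset fun c hc => ?_
      rw [Set.mem_setOf_eq, sub_eq_zero] at hc
      rw [Set.mem_singleton_iff, eq_div_iff hD, hc]
  have himg : ((fun P : Pt => (xv (f P)).1) '' {P : Pt | ¬ Good S P}).Finite :=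
    (finite_points_over hS).image _
  have hrat : ((fun x => N.eval x / D.eval x) '' S).Finite := hS.image _
  filter_upwards [htop.eventually_cofinite_notMem, himg.eventually_cofinite_notMem,
    hrat.eventually_cofinite_notMem] with c h1 h2 h3
  refine ⟨natDegree_eq_of_le_of_coeff_ne_zero ((natDegree_sub_le _ _).trans
    (max_le (le_max_left _ _) ((natDegree_C_mul_le _ _).trans (le_max_right _ _))))
    (by rw [coeff_sub, coeff_C_mul]; exact h1), fun x y hy => ⟨fun e => ?_, ?_⟩⟩
  · rw [eval_sub, eval_mul, eval_C, sub_eq_zero] at e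
    have hD : D.eval x ≠ 0 := fun e0 => eval_not_both h.1 x ⟨by rw [e, e0, mul_zero], e0⟩
    have hx : x ∉ S := fun hx => h3 ⟨x, hx, by simp [e, hD]⟩
    simp only [hSdef, Set.mem_setOf_eq, not_not] at hx
    have := hx y hy
    rcases hP : f (Affine.Point.some x y hy) with _ | ⟨x', y', h'⟩
    · rw [hP, ← Affine.Point.zero_def, xv_zero] at this
      simp at this; exact absurd this.symm hD
    · rw [hP, xv_some] at this
      simp only [mul_one] at this
      obtain rfl : x' = c := mul_left_cancel₀ hD (by rw [← this, e]; ring)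
      exact ⟨y', h', rfl⟩
  · rintro ⟨y', h', e⟩
    have hx : x ∉ S := by
      intro hx
      refine h2 ⟨Affine.Point.some x y hy, ?_, by simp only [e, xv_some]⟩
      rintro ⟨x₁, y₁, hh, e', hx'⟩
      rw [Affine.Point.some.injEq] at e'
      exact hx' (e'.1 ▸ hx)
    simp only [hSdef, Set.mem_setOf_eq, not_not] at hx
    have := hx y hy
    rw [e, xv_some] at this
    simp only [mul_one] at this
    rw [eval_sub, eval_mul, eval_C, this]; ring

theorem surjective_of_xDeg {f : AddMonoid.End Pt} {d : ℕ} (h : XDeg f d) (hd : 0 < d) :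
    Function.Surjective f := by
  obtain ⟨N, D, h, rfl⟩ := h
  have hev := fibre_lemma h hd
  rw [eventually_cofinite] at hev
  refine AddMonoidHom.range_eq_top.1 (top_of_good_mem hev ?_)
  rintro _ ⟨c, y₀, h₀, rfl, hc⟩
  rw [Set.mem_setOf_eq, not_not] at hc
  obtain ⟨r, hr⟩ := IsAlgClosed.exists_root (N - C c * D) (fun e => by
    rw [degree_eq_natDegree (sub_C_mul_ne_zero h.1 hd c), hc.1, Nat.cast_eq_zero] at e; omega)
  obtain ⟨y, hy⟩ := exists_y (W := W) r
  obtain ⟨y', h', e⟩ := (hc.2 r y hy).1 hr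
  rcases (Affine.Point.X_eq_iff (h₁ := h') (h₂ := h₀)).1 rfl with e' | e'
  · exact ⟨_, e.trans e'⟩
  · exact ⟨-Affine.Point.some r y hy, (map_neg f _).trans (by rw [e, e', neg_neg])⟩

end Fermat.Agent.EC.Degree
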