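import Fermat.Agent.EC.Degree.Kernel
import Fermat.Agent.EC.Local.MapPoint

/-!
# The Frobenius endomorphism: `π² - aπ + ℓ = 0` and `a² ≤ 4ℓ`

`a = ℓ + 1 - #ker (π - 1)`.
-/

set_option autoImplicit false
set_option linter.unusedSectionVars false

namespace Fermat.Agent.EC.Degree

open WeierstrassCurve Polynomial Filter

variable {K : Type*} [Field K] [DecidableEq K] [IsAlgClosed K] (ℓ : ℕ) [hℓ : Fact ℓ.Prime]
  [CharP K ℓ] {W : WeierstrassCurve K} [W.IsElliptic]

local notation "Pt" => W.toAffine.Point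

/-- The Frobenius endomorphism. -/
noncomputable def frobPt (hW : W.map (frobenius K ℓ) = W) : AddMonoid.End Pt :=
  sigmaPoint (frobenius K ℓ) hW

variable {ℓ} (hW : W.map (frobenius K ℓ) = W)

lemma xv_frobPt {x y : K} (h : W.toAffine.Nonsingular x y) :
    xv (frobPt ℓ hW (Affine.Point.some x y h)) = (x ^ ℓ, 1) := rfl

lemma frobPt_bijective : Function.Bijective (frobPt ℓ hW) := by
  haveI : PerfectRing K ℓ := PerfectField.toPerfectRing ℓ
  have hs : Function.Surjective (frobenius K ℓ) := surjective_frobenius K ℓ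
  constructor
  · rintro (_ | ⟨x₁, y₁, h₁⟩) (_ | ⟨x₂, y₂, h₂⟩) e
    · rfl
    · exact absurd e.symm (Affine.Point.some_ne_zero _)
    · exact absurd e (Affine.Point.some_ne_zero _)
    · have e' := (Affine.Point.some.injEq ..).mp e
      obtain rfl : x₁ = x₂ := frobenius_inj K ℓ e'.1
      obtain rfl : y₁ = y₂ := frobenius_inj K ℓ e'.2
      rfl
  · rintro (_ | ⟨x, y, h⟩)
    · exact ⟨0, rfl⟩
    · obtain ⟨x', rfl⟩ := hs x
      obtain ⟨y', rfl⟩ := hs y
      have h' : W.toAffine.Nonsingular x' y' :=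
        (Affine.map_nonsingular W.toAffine (frobenius K ℓ).injective x' y').1 (by
          show (W.map (frobenius K ℓ)).toAffine.Nonsingular _ _
          rw [hW]; exact h)
      exact ⟨.some x' y' h', rfl⟩

lemma isXRep_frobPt : IsXRep (frobPt ℓ hW) (X ^ ℓ) 1 :=
  ⟨isCoprime_one_right, Eventually.of_forall fun x y h => by simp [xv_frobPt]⟩

lemma xDeg_frobPt : XDeg (frobPt ℓ hW) ℓ := ⟨X ^ ℓ, 1, isXRep_frobPt hW, by simp⟩

lemma xDegZ_intCast (n : ℤ) : XDegZ ((n : AddMonoid.End Pt)) (n ^ 2) := by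
  have h0 : XDegZ (0 : AddMonoid.End Pt) 0 := ⟨0, xDeg_zero, rfl⟩
  have h1 : XDegZ (1 : AddMonoid.End Pt) 1 := ⟨1, xDeg_one, rfl⟩
  have := h0.line h1 (by rw [zero_add]; exact h1) n
  simpa using this

/-- Powers of `y` are affine in `y` modulo the equation. -/
lemma exists_pow_y (n : ℕ) : ∃ α β : K[X], ∀ x y, W.toAffine.Equation x y →
    y ^ n = α.eval x + β.eval x * y := by
  induction n with
  | zero => exact ⟨1, 0, fun x y _ => by simp⟩
  | succ n ih =>
    obtain ⟨α, β, h⟩ := ih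
    refine ⟨β * (X ^ 3 + C W.a₂ * X ^ 2 + C W.a₄ * X + C W.a₆),
      α - β * (C W.a₁ * X + C W.a₃), fun x y e => ?_⟩
    rw [pow_succ, h x y e]
    rw [Affine.equation_iff] at e
    simp only [eval_add, eval_sub, eval_mul, eval_pow, eval_X, eval_C]
    linear_combination β.eval x * e

/-- The abscissa of `π P - P`. -/
lemma frob_sub_one_eval {α β : K[X]} (hαβ : ∀ x y, W.toAffine.Equation x y →
      y ^ ℓ = α.eval x + β.eval x * y) {x y : K} (h : W.toAffine.Nonsingular x y)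
    (hne : x ^ ℓ ≠ x) :
    ∃ x' y' h', (frobPt ℓ hW - 1) (Affine.Point.some x y h) = Affine.Point.some x' y' h' ∧
      x' * (x ^ ℓ - x) ^ 2 =
        (α.eval x + W.a₁ * x + W.a₃) ^ 2
          + (β.eval x + 1) ^ 2 * (x ^ 3 + W.a₂ * x ^ 2 + W.a₄ * x + W.a₆)
          + W.a₁ * (α.eval x + W.a₁ * x + W.a₃) * (x ^ ℓ - x)
          - (W.a₂ + x ^ ℓ + x) * (x ^ ℓ - x) ^ 2
        + (2 * (α.eval x + W.a₁ * x + W.a₃) * (β.eval x + 1)
          - (β.eval x + 1) ^ 2 * (W.a₁ * x + W.a₃)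
          + W.a₁ * (β.eval x + 1) * (x ^ ℓ - x)) * y := by
  have h1 : W.toAffine.Nonsingular (x ^ ℓ) (y ^ ℓ) := nonsingular_of_map _ hW h
  have h2 : W.toAffine.Nonsingular x (W.toAffine.negY x y) := (Affine.nonsingular_neg ..).2 h
  obtain ⟨L, hL⟩ : ∃ L, L = W.toAffine.slope (x ^ ℓ) x (y ^ ℓ) (W.toAffine.negY x y) := ⟨_, rfl⟩
  refine ⟨W.toAffine.addX (x ^ ℓ) x L, W.toAffine.addY (x ^ ℓ) x (y ^ ℓ) L,
    hL ▸ Affine.nonsingular_add h1 h2 fun hxy => hne hxy.1, ?_, ?_⟩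
  · subst hL
    have e1 : frobPt ℓ hW (Affine.Point.some x y h) = Affine.Point.some (x ^ ℓ) (y ^ ℓ) h1 := rfl
    show frobPt ℓ hW (Affine.Point.some x y h) + -(Affine.Point.some x y h) = _
    rw [e1, Affine.Point.neg_some]
    exact Affine.Point.add_of_X_ne hne
  · have hy2 := (Affine.equation_iff ..).1 h.1
    have hLw : L * (x ^ ℓ - x) = α.eval x + W.a₁ * x + W.a₃ + (β.eval x + 1) * y := by
      rw [hL, Affine.slope_of_X_ne hne, div_mul_cancel₀ _ (sub_ne_zero.2 hne), hαβ x y h.1,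
        Affine.negY]
      ring
    simp only [Affine.addX]
    linear_combination (L * (x ^ ℓ - x) + (α.eval x + W.a₁ * x + W.a₃) + (β.eval x + 1) * y
      + W.a₁ * (x ^ ℓ - x)) * hLw + (β.eval x + 1) ^ 2 * hy2

lemma exists_coprime_factors {R : Type*} [CommRing R] [IsDomain R] [IsPrincipalIdealRing R]
    (a : R) {b : R} (hb : b ≠ 0) :
    ∃ n d g : R, g ≠ 0 ∧ IsCoprime n d ∧ a = g * n ∧ b = g * d := by
  obtain ⟨g, hg⟩ := (IsPrincipalIdealRing.principal (Ideal.span {a, b})).principal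
  replace hg : Ideal.span {a, b} = Ideal.span {g} := hg
  have ha' : a ∈ Ideal.span {g} := hg ▸ Ideal.subset_span (by simp)
  have hb' : b ∈ Ideal.span {g} := hg ▸ Ideal.subset_span (by simp)
  obtain ⟨n, rfl⟩ := Ideal.mem_span_singleton.1 ha'
  obtain ⟨d, rfl⟩ := Ideal.mem_span_singleton.1 hb'
  have hg' : g ∈ Ideal.span {g * n, g * d} := hg ▸ Ideal.mem_span_singleton_self g
  obtain ⟨u, v, huv⟩ := Ideal.mem_span_pair.1 hg'
  refine ⟨n, d, g, left_ne_zero_of_mul hb, ⟨u, v, mul_left_cancel₀ (left_ne_zero_of_mul hb) ?_⟩, rfl, rfl⟩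
  linear_combination huv

/-- `π - 1` has a representation `N / D` with `(X^ℓ - X)² N = G D`. -/
lemma exists_xRep_frob_sub_one : ∃ N D, IsXRep (frobPt ℓ hW - 1) N D := by
  classical
  obtain ⟨α, β, hαβ⟩ := exists_pow_y (W := W) ℓ
  obtain ⟨w, hw⟩ : ∃ q : K[X], q = X ^ ℓ - X := ⟨_, rfl⟩
  have hw0 : w ≠ 0 := fun e => by
    have := congrArg natDegree e
    rw [natDegree_zero, hw, natDegree_sub_eq_left_of_natDegree_lt (by simp [hℓ.out.one_lt]),
      natDegree_X_pow] at this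
    exact hℓ.out.ne_zero this
  -- `L w = A + B y`
  obtain ⟨A, hA⟩ : ∃ q : K[X], q = α + C W.a₁ * X + C W.a₃ := ⟨_, rfl⟩
  obtain ⟨B, hB⟩ : ∃ q : K[X], q = β + 1 := ⟨_, rfl⟩
  obtain ⟨R, hR⟩ : ∃ q : K[X], q = X ^ 3 + C W.a₂ * X ^ 2 + C W.a₄ * X + C W.a₆ := ⟨_, rfl⟩
  obtain ⟨P, hP⟩ : ∃ q : K[X], q = C W.a₁ * X + C W.a₃ := ⟨_, rfl⟩
  obtain ⟨G0, hG0⟩ : ∃ q : K[X], q = A ^ 2 + B ^ 2 * R + C W.a₁ * A * w - (C W.a₂ + X ^ ℓ + X) * w ^ 2 := ⟨_, rfl⟩
  obtain ⟨G1, hG1⟩ : ∃ q : K[X], q = 2 * A * B - B ^ 2 * P + C W.a₁ * B * w := ⟨_, rfl⟩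
  have hval : ∀ x y (h : W.toAffine.Nonsingular x y), w.eval x ≠ 0 →
      ∃ x' y' h', (frobPt ℓ hW - 1) (Affine.Point.some x y h) = Affine.Point.some x' y' h' ∧
        x' * w.eval x ^ 2 = G0.eval x + G1.eval x * y := by
    intro x y h hx
    have hwx : w.eval x = x ^ ℓ - x := by simp [hw]
    obtain ⟨x', y', h', e1, e2⟩ := frob_sub_one_eval hW hαβ h (fun e => hx (by rw [hwx, e, sub_self]))
    refine ⟨x', y', h', e1, ?_⟩
    simp only [hG0, hG1, hA, hB, hR, hP, eval_add, eval_sub, eval_mul, eval_pow, eval_X, eval_C,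
      eval_ofNat, eval_one, hwx]
    linear_combination e2
  have hwfin : {x : K | w.eval x = 0}.Finite := finite_setOf_isRoot hw0
  have hG10 : G1 = 0 := by
    refine eq_of_eventually_eval ?_
    filter_upwards [hwfin.eventually_cofinite_notMem,
      (finite_two_torsion_x (W := W)).eventually_cofinite_notMem] with x hx hx2
    simp only [Set.mem_setOf_eq, not_forall] at hx hx2
    obtain ⟨y, hy, hy'⟩ := hx2
    have h : W.toAffine.Nonsingular x y := (Affine.equation_iff_nonsingular (W := W.toAffine)).1 hy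
    obtain ⟨x₁, y₁, h₁, e₁, f₁⟩ := hval x y h hx
    obtain ⟨x₂, y₂, h₂, e₂, f₂⟩ := hval x _ ((Affine.nonsingular_neg ..).2 h) hx
    rw [← Affine.Point.neg_some h] at e₂
    have hneg : (frobPt ℓ hW - 1) (-Affine.Point.some x y h) =
        -(frobPt ℓ hW - 1) (Affine.Point.some x y h) := map_neg _ _
    rw [hneg, e₁, Affine.Point.neg_some, Affine.Point.some.injEq] at e₂
    rw [← e₂.1] at f₂
    rw [eval_zero]
    have h3 : G1.eval x * (y - W.toAffine.negY x y) = 0 := by linear_combination f₂ - f₁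
    refine (mul_eq_zero.1 h3).resolve_right fun e => hy' ?_
    rw [Affine.negY] at e; linear_combination e
  obtain ⟨N, D, g, hg, hco, e1, e2⟩ :
      ∃ N D g : K[X], g ≠ 0 ∧ IsCoprime N D ∧ G0 = g * N ∧ w ^ 2 = g * D := by
    exact exists_coprime_factors G0 (pow_ne_zero 2 hw0)
  refine ⟨N, D, hco, ?_⟩
  filter_upwards [hwfin.eventually_cofinite_notMem] with x hx y h
  obtain ⟨x', y', h', e', f'⟩ := hval x y h hx
  rw [e', xv_some]
  simp only [mul_one]
  have hgx : g.eval x ≠ 0 := fun e => hx (by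
    have := congrArg (eval x) e2; simpa [e] using this)
  refine mul_left_cancel₀ hgx ?_
  rw [← eval_mul, ← e1, ← mul_assoc, ← eval_mul, ← e2, eval_pow, mul_comm, f', hG10]
  simp

lemma frob_sub_one_ne_zero : frobPt ℓ hW - 1 ≠ 0 := by
  intro e
  have hfin : {x : K | x ^ ℓ = x}.Finite := by
    have h0 : (X ^ ℓ - X : K[X]) ≠ 0 := fun e => by
      have := congrArg natDegree e
      rw [natDegree_zero, natDegree_sub_eq_left_of_natDegree_lt (by simp [hℓ.out.one_lt]),
        natDegree_X_pow] at this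
      exact hℓ.out.ne_zero this
    exact (finite_setOf_isRoot h0).subset fun x hx => by simpa [sub_eq_zero] using hx
  obtain ⟨x, hx⟩ := hfin.infinite_compl.nonempty
  obtain ⟨y, h⟩ := exists_y (W := W) x
  have h2 : frobPt ℓ hW (Affine.Point.some x y h) = Affine.Point.some x y h := by
    have := congrArg (fun f : AddMonoid.End Pt => f (Affine.Point.some x y h)) e
    exact sub_eq_zero.1 this
  exact hx (((Affine.Point.some.injEq ..).mp h2).1)

/-- `π - 1` is separable: its kernel has `deg (π - 1)` elements. -/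
theorem xDeg_frob_sub_one :
    XDeg (frobPt ℓ hW - 1) (Nat.card {P : Pt // frobPt ℓ hW P = P}) := by
  obtain ⟨N, D, h⟩ := exists_xRep_frob_sub_one hW
  have hd : 0 < max N.natDegree D.natDegree := by
    rcases Nat.eq_zero_or_pos (max N.natDegree D.natDegree) with h0 | h0
    · exact absurd (eq_zero_of_xDeg_zero ⟨N, D, h, h0⟩) (frob_sub_one_ne_zero hW)
    · exact h0
  have hker : Nat.card {P : Pt // (frobPt ℓ hW - 1) P = 0} =
      Nat.card {P : Pt // frobPt ℓ hW P = P} :=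
    Nat.card_congr (Equiv.subtypeEquivRight fun P => sub_eq_zero)
  refine ⟨N, D, h, ?_⟩
  rw [← hker, card_ker_of_wronskian_ne h hd]
  intro hwr
  rw [sub_eq_zero] at hwr
  have hD0 := denom_ne_zero h.1 hd
  have hD' : derivative D = 0 := by
    have h1 : D ∣ derivative D := h.1.symm.dvd_of_dvd_mul_left ⟨derivative N, by rw [← hwr]; ring⟩
    by_contra hne
    have := Polynomial.natDegree_le_of_dvd h1 hne
    have := natDegree_derivative_lt (fun e => hne (derivative_of_natDegree_zero e) : D.natDegree ≠ 0)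
    omega
  have hN' : derivative N = 0 := by
    rw [hD', mul_zero] at hwr
    exact (mul_eq_zero.1 hwr).resolve_right hD0
  -- the biquadratic form in `(x, x^ℓ, N / D)`
  set Z : K[X] := X ^ ℓ with hZ
  have hZ' : derivative Z = 0 := by rw [hZ, derivative_X_pow, CharP.cast_eq_zero K ℓ]; simp
  set qa : K[X] := (N - D * Z) ^ 2 with hqa
  set qb : K[X] := -2 * N ^ 2 * Z - N * D * (2 * Z ^ 2 + C W.b₂ * Z + C W.b₄)
    + D ^ 2 * (-C W.b₄ * Z - C W.b₆) with hqb
  set qc : K[X] := N ^ 2 * Z ^ 2 - N * D * (C W.b₄ * Z + C W.b₆)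
    + D ^ 2 * (-C W.b₆ * Z - C W.b₈) with hqc
  have hF : qa * X ^ 2 + qb * X + qc = 0 := by
    refine eq_of_eventually_eval ?_
    have hsplit : {x : K | x ^ ℓ = x}.Finite := by
      refine (finite_setOf_isRoot (p := (X ^ ℓ - X : K[X])) ?_).subset
        fun x hx => by simpa [sub_eq_zero] using hx
      intro e
      have := congrArg natDegree e
      rw [natDegree_zero, natDegree_sub_eq_left_of_natDegree_lt (by simp [hℓ.out.one_lt]),
        natDegree_X_pow] at this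
      exact hℓ.out.ne_zero this
    filter_upwards [h.2, hsplit.eventually_cofinite_notMem] with x hx hxne
    obtain ⟨y, hy⟩ := exists_y (W := W) x
    obtain ⟨xa, ya, xs, ys, ha, hs, ea, es, hsum, hprod⟩ :=
      addSub_of_ne (nonsingular_of_map _ hW hy) hy (show x ^ ℓ ≠ x from hxne)
    have e := hx y hy
    rw [show (frobPt ℓ hW - 1) (Affine.Point.some x y hy) = Affine.Point.some xs ys hs from es,
      xv_some] at e
    simp only [mul_one] at e
    simp only [frobenius_def] at hsum hprod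
    simp only [uP, tP, sP] at hsum hprod
    simp only [hqa, hqb, hqc, hZ, eval_add, eval_sub, eval_mul, eval_pow, eval_X, eval_C,
      eval_neg, eval_ofNat, eval_zero, e]
    linear_combination D.eval x ^ 2 * xs * hsum - D.eval x ^ 2 * hprod
  have hF' : 2 * qa * X + qb = 0 := by
    have := congrArg derivative hF
    simp only [hqa, hqb, hqc, derivative_add, derivative_sub, derivative_mul, derivative_pow,
      derivative_X, derivative_C, derivative_neg, hN', hD', hZ', map_zero, derivative_ofNat,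
      mul_zero, zero_mul, add_zero, zero_add, sub_zero, neg_zero, mul_one] at this
    simp only [Nat.cast_ofNat, map_ofNat] at this
    rw [← this, hqa, hqb]; ring
  have hdisc : (4 * Z ^ 3 + C W.b₂ * Z ^ 2 + 2 * C W.b₄ * Z + C W.b₆) *
      (D * (4 * N ^ 3 + C W.b₂ * N ^ 2 * D + 2 * C W.b₄ * N * D ^ 2 + C W.b₆ * D ^ 3)) = 0 := by
    have hb8 : 4 * C W.b₈ = C W.b₂ * C W.b₆ - C W.b₄ ^ 2 := by
      rw [← map_mul, ← map_pow, ← map_sub, ← W.b_relation]; simp [map_ofNat]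
    have e : qb ^ 2 - 4 * qa * qc = 0 := by linear_combination (qb + 2 * qa * X) * hF' - 4 * qa * hF
    rw [← e, hqa, hqb, hqc]
    linear_combination -(D ^ 2 * (N - D * Z) ^ 2) * hb8
  set t4 : K[X] := C 4 * X ^ 3 + C W.b₂ * X ^ 2 + C (2 * W.b₄) * X + C W.b₆ with ht4
  have ht40 : t4 ≠ 0 := by
    intro e
    obtain ⟨c, hc⟩ := (finite_two_torsion_x (W := W)).infinite_compl.nonempty
    simp only [Set.mem_compl_iff, Set.mem_setOf_eq, not_forall] at hc
    obtain ⟨y, hy, hy'⟩ := hc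
    apply hy'
    have := congrArg (eval c) e
    have h2 := psi2_sq hy
    simp only [ht4, eval_add, eval_mul, eval_pow, eval_X, eval_C, eval_zero] at this
    simp only [tP] at h2
    exact pow_eq_zero_iff two_ne_zero |>.1 (by linear_combination h2 + this)
  have hz : 4 * Z ^ 3 + C W.b₂ * Z ^ 2 + 2 * C W.b₄ * Z + C W.b₆ ≠ 0 := by
    rw [show (4 * Z ^ 3 + C W.b₂ * Z ^ 2 + 2 * C W.b₄ * Z + C W.b₆ : K[X]) = expand K ℓ t4 by
      simp [ht4, hZ, map_ofNat]]
    exact (expand_ne_zero hℓ.out.pos).2 ht40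
  have h0 := (mul_eq_zero.1 ((mul_eq_zero.1 hdisc).resolve_left hz)).resolve_left hD0
  -- so `N / D` takes finitely many values
  have hfin := (finite_preimage h.1 hd (finite_setOf_isRoot ht40))
  obtain ⟨x, hx⟩ := hfin.infinite_compl.nonempty
  simp only [Set.mem_compl_iff, Set.mem_setOf_eq, not_or, IsRoot.def] at hx
  apply hx.2
  have := congrArg (eval x) h0
  simp only [eval_add, eval_mul, eval_pow, eval_C, eval_ofNat, eval_zero] at this
  simp only [ht4, eval_add, eval_mul, eval_pow, eval_X, eval_C]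
  field_simp [hx.1]
  linear_combination this

/-- `a = ℓ + 1 - #E(𝔽_ℓ)`. -/
noncomputable def frobTrace : ℤ :=
  (ℓ : ℤ) + 1 - (Nat.card {P : Pt // frobPt ℓ hW P = P} : ℕ)

lemma xDegZ_frob_sub_one : XDegZ (frobPt ℓ hW - 1) ((ℓ : ℤ) + 1 - frobTrace hW) :=
  ⟨_, xDeg_frob_sub_one hW, by rw [frobTrace]; ring⟩

/-- Degrees on `ℤ π + ℤ`. -/
theorem xDegZ_lattice (m n : ℤ) :
    XDegZ ((n : AddMonoid.End Pt) + m • frobPt ℓ hW)
      (n ^ 2 + m * n * frobTrace hW + m ^ 2 * ℓ) := by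
  have hπ : XDegZ (frobPt ℓ hW) ℓ := ⟨ℓ, xDeg_frobPt hW, rfl⟩
  have h1 : XDegZ (-1 : AddMonoid.End Pt) 1 := ⟨1, xDeg_one.neg, rfl⟩
  have hline := hπ.line h1 (c := (ℓ : ℤ) + 1 - frobTrace hW)
    (by rw [← sub_eq_add_neg]; exact xDegZ_frob_sub_one hW) (-n)
  have hn : XDegZ ((n : AddMonoid.End Pt) + frobPt ℓ hW) (n ^ 2 + n * frobTrace hW + ℓ) := by
    convert hline using 1
    · rw [neg_zsmul, zsmul_neg, neg_neg, zsmul_one, add_comm]
    · ring
  have := (xDegZ_intCast (W := W) n).line hπ hn m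
  convert this using 1
  ring

/-- **Hasse.** -/
theorem frobTrace_sq_le : frobTrace hW ^ 2 ≤ 4 * ℓ := by
  have := (xDegZ_lattice hW 2 (-frobTrace hW)).nonneg
  nlinarith

/-- **Cayley–Hamilton for Frobenius.** -/
theorem frob_quadratic (P : Pt) :
    frobPt ℓ hW (frobPt ℓ hW P) - frobTrace hW • frobPt ℓ hW P + (ℓ : ℤ) • P = 0 := by
  set π := frobPt ℓ hW with hπ
  set a := frobTrace hW with ha
  set c : ℤ := 4 * ℓ - a ^ 2 with hc
  set ψ : AddMonoid.End Pt := ((-a : ℤ) : AddMonoid.End Pt) + (2 : ℤ) • π with hψ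
  have hψd : XDegZ ψ c := by
    convert xDegZ_lattice hW 2 (-a) using 1
    rw [hc]; ring
  have h1 : XDegZ (1 : AddMonoid.End Pt) 1 := ⟨1, xDeg_one, rfl⟩
  have hp : XDegZ (ψ + 1) (c + 1) := by
    convert xDegZ_lattice hW 2 (-a + 1) using 1
    · rw [hψ, Int.cast_add, Int.cast_one]; abel
    · rw [hc]; ring
  have hm : XDegZ (ψ - 1) (c + 1) := by
    convert xDegZ_lattice hW 2 (-a - 1) using 1
    · rw [hψ, Int.cast_sub, Int.cast_one]; abel
    · rw [hc]; ring
  have hψ2 : XDegZ (ψ * ψ) (c * c) := hψd.comp hψd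
  have hψm : XDegZ (ψ * ψ - 1) ((c + 1) * (c + 1)) := by
    rw [show ψ * ψ - 1 = (ψ + 1) * (ψ - 1) by simpa using (Commute.one_right ψ).mul_self_sub_mul_self_eq]
    exact hp.comp hm
  have hψp : XDegZ (ψ * ψ + 1) (2 * (c * c) + 2 * 1 - (c + 1) * (c + 1)) := by
    obtain ⟨u', hu', eu⟩ := hψ2
    obtain ⟨v', hv', ev⟩ := hψm
    obtain ⟨e, he, hee⟩ := hu'.parallelogram xDeg_one hv'
    exact ⟨e, he, by omega⟩
  have hzero := hψ2.line h1 hψp c
  rw [show c * c + c * (2 * (c * c) + 2 * 1 - (c + 1) * (c + 1) - c * c - 1) + c ^ 2 * 1 = 0 by ring]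
    at hzero
  obtain ⟨n, hn, hn0⟩ := hzero
  obtain rfl : n = 0 := by omega
  have h4 : XDegZ ((4 : ℤ) : AddMonoid.End Pt) 16 := xDegZ_intCast 4
  obtain ⟨d, hd, hd'⟩ := h4
  obtain ⟨Q, rfl⟩ := surjective_of_xDeg hd (by omega) P
  have key := congrArg (fun f : AddMonoid.End Pt => f Q) (eq_zero_of_xDeg_zero hn)
  have hfadd : ∀ (f g : AddMonoid.End Pt) (R : Pt), (f + g) R = f R + g R := fun _ _ _ => rfl
  have hfmul : ∀ (f g : AddMonoid.End Pt) (R : Pt), (f * g) R = f (g R) := fun _ _ _ => rfl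
  have hcast : ∀ (m : ℤ) (R : Pt), (m : AddMonoid.End Pt) R = m • R := fun m R =>
    AddMonoid.End.intCast_apply m R
  have hsm : ∀ (m : ℤ) (f : AddMonoid.End Pt) (R : Pt), (m • f) R = m • f R := fun _ _ _ => rfl
  have hz : ∀ (m : ℤ) (R : Pt), π (m • R) = m • π R := fun m R => map_zsmul π m R
  have ha' : ∀ (R S : Pt), π (R + S) = π R + π S := fun R S => map_add π R S
  simp only [hψ, hfadd, hfmul, hcast, hsm, ha', hz, zsmul_one] at key
  rw [show (0 : AddMonoid.End Pt) Q = 0 from rfl] at key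
  simp only [hcast, hz]
  refine Eq.trans ?_ key
  rw [hc]
  module

/-- If `π` is the scalar `m` on a subgroup of order `p²`, then `p` divides `a - 2m` and `m² - ℓ`. -/
theorem dvd_of_scalar {p : ℕ} (hp : p.Prime) (H : AddSubgroup Pt)
    (hH : Nat.card H = p ^ 2) (hpH : ∀ P ∈ H, (p : ℤ) • P = 0) (m : ℤ)
    (hm : ∀ P ∈ H, frobPt ℓ hW P = m • P) : (p : ℤ) ∣ frobTrace hW - 2 * m := by
  have key : ∀ j : ℤ, (p : ℤ) ^ 2 ∣ (-m - j * p) ^ 2 + (-m - j * p) * frobTrace hW + ℓ := by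
    intro j
    set n : ℤ := -m - j * p
    obtain ⟨d, hd, ed⟩ := xDegZ_lattice hW 1 n
    rw [one_zsmul, one_mul, one_pow, one_mul] at *
    rw [ed]
    rcases Nat.eq_zero_or_pos d with rfl | hd0
    · simp
    obtain ⟨k, hk⟩ := exists_card_ker_mul_eq (frobPt ℓ hW) (frobPt_bijective hW)
      (fun x y h => xv_frobPt hW h) d _ hd hd0
    set f : AddMonoid.End Pt := (n : AddMonoid.End Pt) + frobPt ℓ hW
    let Kf : AddSubgroup Pt :=
      { carrier := {P | f P = 0}
        zero_mem' := map_zero f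
        add_mem' := fun {a b} ha hb => (map_add f a b).trans (by
          rw [show f a = 0 from ha, show f b = 0 from hb, add_zero])
        neg_mem' := fun {a} ha => (map_neg f a).trans (by rw [show f a = 0 from ha, neg_zero]) }
    have hle : H ≤ Kf := fun P hP => by
      show (n : AddMonoid.End Pt) P + frobPt ℓ hW P = 0
      rw [AddMonoid.End.intCast_apply, hm P hP, ← add_zsmul,
        show n + m = -j * (p : ℤ) by simp only [n]; ring, mul_zsmul, hpH P hP, zsmul_zero]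
    have hdvd := AddSubgroup.card_dvd_of_le hle
    rw [hH, show Nat.card Kf = Nat.card {P : Pt // f P = 0} from rfl] at hdvd
    have h2 : p ^ 2 ∣ d := hk ▸ hdvd.mul_right _
    exact_mod_cast h2
  have h0 := key 0
  have h1 := key 1
  have h2 := dvd_sub h1 h0
  rw [show (-m - 1 * (p : ℤ)) ^ 2 + (-m - 1 * p) * frobTrace hW + ℓ -
      ((-m - 0 * p) ^ 2 + (-m - 0 * p) * frobTrace hW + ℓ) =
      p * (p - (frobTrace hW - 2 * m)) by ring, sq] at h2
  have h3 := Int.dvd_of_mul_dvd_mul_left (by exact_mod_cast hp.ne_zero) h2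
  have := dvd_sub (dvd_refl (p : ℤ)) h3
  rwa [sub_sub_cancel] at this

end Fermat.Agent.EC.Degree
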