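import Fermat.Agent.EC.Degree.Fibre

/-!
# The kernel of an endomorphism and its degree

`#ker f * ℓ ^ k = deg f` in characteristic `ℓ`, with `k = 0` when `x ∘ f` is separable.
-/

set_option autoImplicit false
set_option linter.unusedSectionVars false

namespace Fermat.Agent.EC.Degree

open WeierstrassCurve Polynomial Filter

variable {K : Type*} [Field K] [DecidableEq K] [IsAlgClosed K] {W : WeierstrassCurve K}
  [W.IsElliptic]

local notation "Pt" => W.toAffine.Point

lemma finite_two_torsion_x :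
    {c : K | ∀ y, W.toAffine.Equation c y → 2 * y + W.a₁ * c + W.a₃ = 0}.Finite := by
  classical
  set p : K[X] := tP (W.map C) (X * X) (X + X) 1 with hp
  have ep : ∀ c, p.eval c = tP W (c * c) (c + c) 1 := fun c => by
    simp [hp, tP]
  have hp0 : p ≠ 0 := by
    intro e
    set q : K[X] := sP (W.map C) (X * X) (X + X) 1 with hq
    have hdeg : q.degree ≠ 0 := by
      have e' : q = X ^ 4 + (C (-W.b₄) * X ^ 2 + C (-2 * W.b₆) * X + C (-W.b₈)) := by
        simp [hq, sP, map_ofNat]; ring
      have hlt : (C (-W.b₄) * X ^ 2 + C (-2 * W.b₆) * X + C (-W.b₈) : K[X]).degree <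
          ((4 : ℕ) : WithBot ℕ) :=
        lt_of_le_of_lt degree_quadratic_le (by exact_mod_cast (by norm_num : (2 : ℕ) < 4))
      rw [e', degree_add_eq_left_of_degree_lt (by rwa [degree_X_pow]), degree_X_pow]
      decide
    obtain ⟨r, hr⟩ := IsAlgClosed.exists_root q hdeg
    refine forms_ne_zero W W.isUnit_Δ (s := r * r) (t := r + r) (u := 1) (by simp) ⟨?_, ?_, ?_⟩
    · rw [← hr]; simp [hq, sP]
    · rw [← ep, e, eval_zero]
    · simp only [uP]; ring
  refine (finite_setOf_isRoot hp0).subset fun c hc => ?_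
  obtain ⟨y, h⟩ := exists_y (W := W) c
  show p.IsRoot c
  rw [IsRoot.def, ep, ← psi2_sq h.1, hc y h.1]; ring

/-- The kernel of a separable endomorphism has `deg f` elements. -/
theorem card_ker_of_wronskian_ne {f : AddMonoid.End Pt} {N D : K[X]} (h : IsXRep f N D)
    (hd : 0 < max N.natDegree D.natDegree) (hw : derivative N * D - N * derivative D ≠ 0) :
    Nat.card {P : Pt // f P = 0} = max N.natDegree D.natDegree := by
  classical
  have hbad := ((finite_setOf_isRoot hw).image (fun r => N.eval r / D.eval r)).eventually_cofinite_notMem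
  obtain ⟨c, ⟨⟨hdeg, hfib⟩, h1⟩, h2⟩ :=
    (((fibre_lemma h hd).and hbad).and (finite_two_torsion_x (W := W)).eventually_cofinite_notMem).exists
  simp only [Set.mem_setOf_eq, not_forall] at h2
  obtain ⟨y₀, hy₀, hy₀'⟩ := h2
  set q := N - C c * D with hq
  have hq0 : q ≠ 0 := sub_C_mul_ne_zero h.1 hd c
  have hsep : q.Separable := by
    rw [separable_def, isCoprime_iff_aeval_ne_zero_of_isAlgClosed _ K]
    intro r
    simp only [coe_aeval_eq_eval]
    by_contra hh
    push Not at hh
    obtain ⟨e1, e2⟩ := hh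
    rw [hq, eval_sub, eval_mul, eval_C, sub_eq_zero] at e1
    rw [hq, derivative_sub, derivative_C_mul, eval_sub, eval_mul, eval_C, sub_eq_zero] at e2
    have hD : D.eval r ≠ 0 := fun e0 => eval_not_both h.1 r ⟨by rw [e1, e0, mul_zero], e0⟩
    refine h1 ⟨r, ?_, by simp [e1, hD]⟩
    simp only [Set.mem_setOf_eq, IsRoot.def, eval_sub, eval_mul, e1, e2]
    ring
  have hcard : Nat.card {r : K // q.eval r = 0} = max N.natDegree D.natDegree := by
    rw [← hdeg, (IsAlgClosed.splits q).natDegree_eq_card_roots]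
    rw [← Multiset.toFinset_card_of_nodup (nodup_roots hsep), ← Nat.card_eq_finsetCard]
    exact Nat.card_congr (Equiv.subtypeEquivRight fun r => by simp [hq0])
  haveI : Finite {r : K // q.eval r = 0} := Nat.finite_of_card_ne_zero (by omega)
  have hQ₀ : W.toAffine.Nonsingular c y₀ :=
    (Affine.equation_iff_nonsingular (W := W.toAffine)).1 hy₀
  set Q := Affine.Point.some c y₀ hQ₀ with hQdef
  have hQ2 : Q + Q ≠ 0 := fun e => hy₀' ((add_self_eq_zero_iff _).1 e)
  let F := {P : Pt // f P = Q ∨ f P = -Q}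
  have hsel : ∀ r : {r : K // q.eval r = 0}, ∃ y, W.toAffine.Nonsingular r.1 y :=
    fun r => exists_y r.1
  choose ysel hsel using hsel
  let P₁ : {r : K // q.eval r = 0} → Pt := fun r => .some r.1 (ysel r) (hsel r)
  have hP₁ : ∀ r, f (P₁ r) = Q ∨ f (P₁ r) = -Q := fun r => by
    obtain ⟨y', h', e⟩ := (hfib r.1 _ (hsel r)).1 r.2
    rcases (Affine.Point.X_eq_iff (h₁ := h') (h₂ := hQ₀)).1 rfl with e' | e'
    · exact Or.inl (e.trans e')
    · exact Or.inr (e.trans e')
  have hP₁2 : ∀ r, P₁ r + P₁ r ≠ 0 := fun r e => by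
    have e' : f (P₁ r) + f (P₁ r) = 0 := (map_add f _ _).symm.trans (by rw [e]; exact map_zero f)
    rcases hP₁ r with hr | hr <;> rw [hr] at e'
    · exact hQ2 e'
    · exact hQ2 (neg_eq_zero.1 (by rwa [neg_add]))
  let g : {r : K // q.eval r = 0} ⊕ {r : K // q.eval r = 0} → F := Sum.elim
    (fun r => ⟨P₁ r, hP₁ r⟩)
    (fun r => ⟨-P₁ r, by
      rcases hP₁ r with e | e
      · exact Or.inr ((map_neg f _).trans (by rw [e]))
      · exact Or.inl ((map_neg f _).trans (by rw [e, neg_neg]))⟩)
  have hxg : ∀ r r', xv (P₁ r) = xv (P₁ r') → r = r' := fun r r' e => by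
    simpa [P₁, xv_some, Subtype.ext_iff] using e
  have hg : Function.Bijective g := by
    refine ⟨?_, ?_⟩
    · rintro (r | r) (r' | r') e
      all_goals have e' : (g _).1 = (g _).1 := congrArg Subtype.val e
      all_goals simp only [g, Sum.elim_inl, Sum.elim_inr] at e'
      · rw [hxg r r' (by rw [e'])]
      · have hr := hxg r r' (by rw [e', xv_neg])
        rw [← hr, eq_neg_iff_add_eq_zero] at e'
        exact absurd e' (hP₁2 r)
      · have hr := hxg r r' (by rw [← e', xv_neg])
        rw [← hr, neg_eq_iff_add_eq_zero] at e'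
        exact absurd e' (hP₁2 r)
      · rw [hxg r r' (by rw [neg_inj.1 e'])]
    · rintro ⟨P, hP⟩
      rcases P with _ | ⟨x, y, hxy⟩
      · exfalso
        rcases hP with e | e
        · exact Affine.Point.some_ne_zero hQ₀ (e.symm.trans (map_zero f))
        · exact Affine.Point.some_ne_zero hQ₀ (neg_eq_zero.1 (e.symm.trans (map_zero f)))
      have hr : q.eval x = 0 := by
        refine (hfib x y hxy).2 ?_
        rcases hP with e | e
        · exact ⟨_, hQ₀, e⟩
        · exact ⟨_, _, e.trans (Affine.Point.neg_some _)⟩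
      rcases (Affine.Point.X_eq_iff (h₁ := hxy) (h₂ := hsel ⟨x, hr⟩)).1 rfl with e' | e'
      · exact ⟨Sum.inl ⟨x, hr⟩, Subtype.ext e'.symm⟩
      · exact ⟨Sum.inr ⟨x, hr⟩, Subtype.ext e'.symm⟩
  obtain ⟨P₀, hP₀⟩ := surjective_of_xDeg ⟨N, D, h, rfl⟩ hd Q
  have fsub : ∀ P R : Pt, f (P - R) = f P - f R := map_sub f
  have fadd : ∀ P R : Pt, f (P + R) = f P + f R := map_add f
  have fneg : ∀ P : Pt, f (-P) = -f P := map_neg f
  let k : {P : Pt // f P = 0} ⊕ {P : Pt // f P = 0} → F := Sum.elim
    (fun r => ⟨P₀ + r.1, Or.inl (by rw [fadd, hP₀, r.2, add_zero])⟩)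
    (fun r => ⟨-(P₀ + r.1), Or.inr (by rw [fneg, fadd, hP₀, r.2, add_zero])⟩)
  have hk : Function.Bijective k := by
    refine ⟨?_, ?_⟩
    · rintro (r | r) (r' | r') e
      all_goals have e' : (k _).1 = (k _).1 := congrArg Subtype.val e
      all_goals simp only [k, Sum.elim_inl, Sum.elim_inr] at e'
      · rw [Subtype.ext (add_left_cancel e')]
      · have e'' := congrArg f e'
        simp only [fneg, fadd, hP₀, r.2, r'.2, add_zero, eq_neg_iff_add_eq_zero] at e''
        exact absurd e'' hQ2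
      · have e'' := congrArg f e'
        simp only [fneg, fadd, hP₀, r.2, r'.2, add_zero, neg_eq_iff_add_eq_zero] at e''
        exact absurd e'' hQ2
      · rw [Subtype.ext (add_left_cancel (neg_inj.1 e'))]
    · rintro ⟨P, e | e⟩
      · exact ⟨Sum.inl ⟨P - P₀, by rw [fsub, e, hP₀, sub_self]⟩,
          Subtype.ext (add_sub_cancel P₀ P)⟩
      · exact ⟨Sum.inr ⟨-P - P₀, by rw [fsub, fneg, e, hP₀, neg_neg, sub_self]⟩,
          Subtype.ext (by show -(P₀ + (-P - P₀)) = P; rw [add_sub_cancel, neg_neg])⟩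
  have hcards := (Nat.card_congr (Equiv.ofBijective k hk)).trans
    (Nat.card_congr (Equiv.ofBijective g hg)).symm
  haveI : Finite F := Finite.of_equiv _ (Equiv.ofBijective g hg)
  haveI : Finite {P : Pt // f P = 0} := by
    haveI := Finite.of_equiv _ (Equiv.ofBijective k hk).symm
    exact Finite.sum_left {P : Pt // f P = 0}
  rw [Nat.card_sum, Nat.card_sum, hcard] at hcards
  omega

section CharP

variable {ℓ : ℕ} [hℓ : Fact ℓ.Prime] [CharP K ℓ]

/-- `f` kills a subgroup; `#ker f * ℓ ^ k = deg f`. -/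
theorem exists_card_ker_mul_eq (π : AddMonoid.End Pt) (hπ : Function.Bijective π)
    (hπx : ∀ (x y : K) (h : W.toAffine.Nonsingular x y),
      xv (π (Affine.Point.some x y h)) = (x ^ ℓ, 1)) :
    ∀ (d : ℕ) (f : AddMonoid.End Pt), XDeg f d → 0 < d →
      ∃ k : ℕ, Nat.card {P : Pt // f P = 0} * ℓ ^ k = d := by
  intro d
  induction d using Nat.strong_induction_on with
  | _ d ih =>
  intro f hf hd
  obtain ⟨N, D, h, rfl⟩ := hf
  by_cases hw : derivative N * D - N * derivative D = 0
  swap
  · exact ⟨0, by rw [pow_zero, mul_one, card_ker_of_wronskian_ne h hd hw]⟩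
  -- inseparable: `f = f₁ ∘ π`
  have hD0 := denom_ne_zero h.1 hd
  rw [sub_eq_zero] at hw
  have hD' : derivative D = 0 := by
    have h1 : D ∣ derivative D := h.1.symm.dvd_of_dvd_mul_left ⟨derivative N, by rw [← hw]; ring⟩
    by_contra hne
    have := Polynomial.natDegree_le_of_dvd h1 hne
    have h2 : D.natDegree ≠ 0 := fun e => hne (derivative_of_natDegree_zero e)
    have := natDegree_derivative_lt h2
    omega
  have hN' : derivative N = 0 := by
    rw [hD', mul_zero] at hw
    exact (mul_eq_zero.1 hw).resolve_right hD0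
  set N₁ := contract ℓ N
  set D₁ := contract ℓ D
  have eN : expand K ℓ N₁ = N := expand_contract ℓ hN' hℓ.out.ne_zero
  have eD : expand K ℓ D₁ = D := expand_contract ℓ hD' hℓ.out.ne_zero
  let e : Pt ≃+ Pt := AddEquiv.ofBijective (π : Pt →+ Pt) hπ
  let f₁ : AddMonoid.End Pt := (f : Pt →+ Pt).comp e.symm.toAddMonoidHom
  have hf₁ : ∀ P, f₁ (π P) = f P := fun P => congrArg f (e.symm_apply_apply P)
  have hfrob : Function.Surjective (fun x : K => x ^ ℓ) := fun x =>
    IsAlgClosed.exists_pow_nat_eq x hℓ.out.pos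
  have hrep : IsXRep f₁ N₁ D₁ := by
    refine ⟨?_, ?_⟩
    · rw [Polynomial.isCoprime_iff_aeval_ne_zero_of_isAlgClosed _ K]
      intro z
      obtain ⟨x, rfl⟩ := hfrob z
      by_contra hh
      push Not at hh
      simp only [coe_aeval_eq_eval] at hh
      exact eval_not_both h.1 x
        ⟨by rw [← eN, expand_eval]; exact hh.1, by rw [← eD, expand_eval]; exact hh.2⟩
    · rw [eventually_cofinite]
      refine ((eventually_cofinite.1 h.2).image (fun x => x ^ ℓ)).subset fun z hz => ?_
      obtain ⟨x, rfl⟩ := hfrob z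
      refine ⟨x, fun hx => hz fun y hy => ?_, rfl⟩
      obtain ⟨P, hP⟩ := hπ.2 (Affine.Point.some (x ^ ℓ) y hy)
      rcases P with _ | ⟨x', y', h'⟩
      · exact absurd (hP.symm.trans (map_zero π)) (Affine.Point.some_ne_zero hy)
      · have ex := hπx x' y' h'
        rw [hP, xv_some, Prod.mk.injEq] at ex
        have hxx : x' = x := frobenius_inj K ℓ (by simpa [frobenius_def] using ex.1.symm)
        subst hxx
        rw [← hP, hf₁, ← expand_eval, ← expand_eval, eN, eD]
        exact hx y' h'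
  have hdeg : max N.natDegree D.natDegree = max N₁.natDegree D₁.natDegree * ℓ := by
    rw [← eN, ← eD, natDegree_expand, natDegree_expand, max_mul_of_nonneg _ _ (Nat.zero_le _)]
  obtain ⟨k, hk⟩ := ih _ (by nlinarith [hℓ.out.two_le]) f₁ ⟨N₁, D₁, hrep, rfl⟩ (by
    rcases Nat.eq_zero_or_pos (max N₁.natDegree D₁.natDegree) with h0 | h0
    · rw [h0, zero_mul] at hdeg; omega
    · exact h0)
  refine ⟨k + 1, ?_⟩
  have hcard : Nat.card {P : Pt // f P = 0} = Nat.card {P : Pt // f₁ P = 0} :=
    Nat.card_congr (Equiv.subtypeEquiv e.toEquiv fun P => by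
      rw [show f P = f₁ (π P) from (hf₁ P).symm]; rfl)
  rw [hcard, hdeg, pow_succ, ← mul_assoc, hk]

end CharP

end Fermat.Agent.EC.Degree
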