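import Fermat.Agent.EC.AddSub
import Mathlib

/-!
# Degrees of endomorphisms through their action on abscissae

`IsXRep f N D`: coprime `N, D` with `x (f P) = N (x P) / D (x P)` for all but finitely many abscissae.
The degree `max (deg N) (deg D)` satisfies the parallelogram law (no characteristic assumption).
-/

set_option autoImplicit false
set_option linter.unusedSectionVars false

namespace Fermat.Agent.EC.Degree

open WeierstrassCurve Polynomial Filter

variable {K : Type*} [Field K] [DecidableEq K] {W : WeierstrassCurve K}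

/-- Homogeneous abscissa, `(1, 0)` at infinity. -/
def xv : W.toAffine.Point → K × K
  | .zero => (1, 0)
  | .some x _ _ => (x, 1)

lemma xv_zero : xv (0 : W.toAffine.Point) = (1, 0) := rfl

lemma xv_some {x y : K} (h : W.toAffine.Nonsingular x y) :
    xv (Affine.Point.some x y h) = (x, 1) := rfl

lemma xv_neg (P : W.toAffine.Point) : xv (-P) = xv P := by
  rcases P with _ | ⟨x, y, h⟩ <;> rfl

lemma xv_ne (P : W.toAffine.Point) : ¬((xv P).1 = 0 ∧ (xv P).2 = 0) := by
  rcases P with _ | ⟨x, y, h⟩ <;> simp [xv]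

/-- The three biquadratic forms compute `(x(P+Q) x(P-Q), x(P+Q) + x(P-Q), 1)` projectively. -/
theorem forms_point [W.IsElliptic] (P Q : W.toAffine.Point) : ∃ c : K, c ≠ 0 ∧
    sP W ((xv P).1 * (xv Q).1) ((xv P).1 * (xv Q).2 + (xv Q).1 * (xv P).2) ((xv P).2 * (xv Q).2) =
      c * ((xv (P + Q)).1 * (xv (P - Q)).1) ∧
    tP W ((xv P).1 * (xv Q).1) ((xv P).1 * (xv Q).2 + (xv Q).1 * (xv P).2) ((xv P).2 * (xv Q).2) =
      c * ((xv (P + Q)).1 * (xv (P - Q)).2 + (xv (P - Q)).1 * (xv (P + Q)).2) ∧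
    uP ((xv P).1 * (xv Q).1) ((xv P).1 * (xv Q).2 + (xv Q).1 * (xv P).2) ((xv P).2 * (xv Q).2) =
      c * ((xv (P + Q)).2 * (xv (P - Q)).2) := by
  rcases P with _ | ⟨x₁, y₁, h₁⟩ <;> rcases Q with _ | ⟨x₂, y₂, h₂⟩
  · refine ⟨1, one_ne_zero, ?_⟩
    rw [← Affine.Point.zero_def, add_zero, sub_zero, xv_zero]
    simp [sP, tP, uP]
  · refine ⟨1, one_ne_zero, ?_⟩
    rw [← Affine.Point.zero_def, zero_add, zero_sub, xv_neg, xv_zero, xv_some]
    simp [sP, tP, uP]; exact ⟨by ring, by ring⟩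
  · refine ⟨1, one_ne_zero, ?_⟩
    rw [← Affine.Point.zero_def, add_zero, sub_zero, xv_zero, xv_some]
    simp [sP, tP, uP]; exact ⟨by ring, by ring⟩
  simp only [xv_some, mul_one]
  rcases eq_or_ne x₁ x₂ with hx | hx
  · subst hx
    have hu : uP (x₁ * x₁) (x₁ + x₁) 1 = 0 := by simp only [uP]; ring
    -- `2P` projectively
    obtain ⟨c, hc, e1, e2⟩ : ∃ c : K, c ≠ 0 ∧
        sP W (x₁ * x₁) (x₁ + x₁) 1 =
          c * (xv (Affine.Point.some x₁ y₁ h₁ + Affine.Point.some x₁ y₁ h₁)).1 ∧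
        tP W (x₁ * x₁) (x₁ + x₁) 1 =
          c * (xv (Affine.Point.some x₁ y₁ h₁ + Affine.Point.some x₁ y₁ h₁)).2 := by
      by_cases hy : 2 * y₁ + W.a₁ * x₁ + W.a₃ = 0
      · refine ⟨sP W (x₁ * x₁) (x₁ + x₁) 1, ?_, ?_, ?_⟩
        · intro e
          exact forms_ne_zero W W.isUnit_Δ (s := x₁ * x₁) (t := x₁ + x₁) (u := 1) (by simp)
            ⟨e, by rw [← psi2_sq h₁.1, hy]; ring, hu⟩
        · rw [(add_self_eq_zero_iff h₁).2 hy, xv_zero, mul_one]
        · rw [(add_self_eq_zero_iff h₁).2 hy, xv_zero, mul_zero, ← psi2_sq h₁.1, hy]; ring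
      · obtain ⟨xa, ya, ha, e, hxa⟩ := double_of_ne h₁ hy
        refine ⟨tP W (x₁ * x₁) (x₁ + x₁) 1, ?_, ?_, ?_⟩
        · rw [← psi2_sq h₁.1]; exact pow_ne_zero 2 hy
        · rw [e, xv_some]; linear_combination -hxa
        · rw [e, xv_some, mul_one]
    refine ⟨c, hc, ?_⟩
    rcases (Affine.Point.X_eq_iff (h₁ := h₁) (h₂ := h₂)).1 rfl with e | e
    · rw [← e, sub_self, xv_zero, e1, e2, hu]; refine ⟨?_, ?_, ?_⟩ <;> ring
    · have hq : Affine.Point.some x₁ y₂ h₂ = -Affine.Point.some x₁ y₁ h₁ := by rw [e, neg_neg]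
      rw [hq, add_neg_cancel, sub_neg_eq_add, xv_zero, e1, e2, hu]; refine ⟨?_, ?_, ?_⟩ <;> ring
  · obtain ⟨xa, ya, xs, ys, ha, hs, ea, es, hsum, hprod⟩ := addSub_of_ne h₁ h₂ hx
    refine ⟨uP (x₁ * x₂) (x₁ + x₂) 1, ?_, ?_⟩
    · rw [show uP (x₁ * x₂) (x₁ + x₂) 1 = (x₁ - x₂) ^ 2 by simp only [uP]; ring]
      exact pow_ne_zero 2 (sub_ne_zero.2 hx)
    rw [ea, es, xv_some, xv_some, ← hsum, ← hprod]
    refine ⟨?_, ?_, ?_⟩ <;> ring

/-- `x (f P) = N (x P) / D (x P)` for all but finitely many abscissae. -/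
def IsXRep (f : AddMonoid.End W.toAffine.Point) (N D : K[X]) : Prop :=
  IsCoprime N D ∧ ∀ᶠ x in cofinite, ∀ (y : K) (h : W.toAffine.Nonsingular x y),
    N.eval x * (xv (f (Affine.Point.some x y h))).2 =
      D.eval x * (xv (f (Affine.Point.some x y h))).1

/-- The degree of `f` read on abscissae. -/
def XDeg (f : AddMonoid.End W.toAffine.Point) (d : ℕ) : Prop :=
  ∃ N D, IsXRep f N D ∧ max N.natDegree D.natDegree = d

lemma eval_not_both {N D : K[X]} (h : IsCoprime N D) (x : K) :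
    ¬(N.eval x = 0 ∧ D.eval x = 0) := by
  rintro ⟨h1, h2⟩
  obtain ⟨a, b, e⟩ := h
  have := congrArg (eval x) e
  simp [h1, h2] at this

/-- The top coefficient vector is nonzero. -/
lemma coeff_top_not_both {N D : K[X]} (h : IsCoprime N D) :
    ¬(N.coeff (max N.natDegree D.natDegree) = 0 ∧ D.coeff (max N.natDegree D.natDegree) = 0) := by
  rintro ⟨h1, h2⟩
  rcases max_choice N.natDegree D.natDegree with e | e
  · rw [e] at h1 h2
    have hN : N = 0 := leadingCoeff_eq_zero.1 h1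
    rw [hN, natDegree_zero] at e h2
    rw [hN, isCoprime_zero_left] at h
    obtain ⟨r, hr, hD⟩ := Polynomial.isUnit_iff.1 h
    rw [← hD, coeff_C_zero] at h2
    exact hr.ne_zero h2
  · rw [e] at h1 h2
    have hD : D = 0 := leadingCoeff_eq_zero.1 h2
    rw [hD, natDegree_zero] at e h1
    rw [hD, isCoprime_zero_right] at h
    obtain ⟨r, hr, hN⟩ := Polynomial.isUnit_iff.1 h
    rw [← hN, coeff_C_zero] at h1
    exact hr.ne_zero h1

variable [IsAlgClosed K]

lemma exists_y [W.IsElliptic] (x : K) : ∃ y, W.toAffine.Nonsingular x y := by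
  obtain ⟨y, hy⟩ := IsAlgClosed.exists_root
    (C (1 : K) * Polynomial.X ^ 2 + C (W.a₁ * x + W.a₃) * Polynomial.X
      + C (-(x ^ 3 + W.a₂ * x ^ 2 + W.a₄ * x + W.a₆)))
    (by rw [degree_quadratic one_ne_zero]; decide)
  refine ⟨y, (Affine.equation_iff_nonsingular (W := W.toAffine)).1 ?_⟩
  rw [Affine.equation_iff]
  simp only [IsRoot.def, eval_add, eval_mul, eval_C, eval_pow, eval_X] at hy
  linear_combination hy

lemma exists_smul_xv {f : AddMonoid.End W.toAffine.Point} {N D : K[X]} (hc : IsCoprime N D)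
    {x y : K} {h : W.toAffine.Nonsingular x y}
    (e : N.eval x * (xv (f (Affine.Point.some x y h))).2 =
      D.eval x * (xv (f (Affine.Point.some x y h))).1) :
    ∃ l : K, l ≠ 0 ∧ N.eval x = l * (xv (f (Affine.Point.some x y h))).1 ∧
      D.eval x = l * (xv (f (Affine.Point.some x y h))).2 := by
  rcases hP : f (Affine.Point.some x y h) with _ | ⟨x', y', h'⟩
  · rw [hP, ← Affine.Point.zero_def, xv_zero] at e
    rw [← Affine.Point.zero_def, xv_zero]
    simp only [mul_zero, mul_one] at e ⊢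
    exact ⟨N.eval x, fun e' => eval_not_both hc x ⟨e', e.symm⟩, rfl, e.symm⟩
  · rw [hP, xv_some] at e
    rw [xv_some]
    simp only [mul_one] at e ⊢
    exact ⟨D.eval x, fun e' => eval_not_both hc x ⟨by rw [e, e', zero_mul], e'⟩, e, rfl⟩

lemma eq_of_eventually_eval {p q : K[X]} (h : ∀ᶠ x in cofinite, p.eval x = q.eval x) : p = q :=
  Polynomial.eq_of_infinite_eval_eq p q (Set.infinite_of_finite_compl h)

lemma IsXRep.cross [W.IsElliptic] {f : AddMonoid.End W.toAffine.Point} {N D N' D' : K[X]}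
    (h : IsXRep f N D) (h' : IsXRep f N' D') : N * D' = N' * D := by
  refine eq_of_eventually_eval ((h.2.and h'.2).mono fun x hx => ?_)
  obtain ⟨y, hy⟩ := exists_y (W := W) x
  obtain ⟨l, -, e1, e2⟩ := exists_smul_xv h.1 (hx.1 y hy)
  obtain ⟨l', -, e3, e4⟩ := exists_smul_xv h'.1 (hx.2 y hy)
  rw [eval_mul, eval_mul, e1, e2, e3, e4]; ring

theorem XDeg.unique [W.IsElliptic] {f : AddMonoid.End W.toAffine.Point} {d d' : ℕ}
    (h : XDeg f d) (h' : XDeg f d') : d = d' := by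
  obtain ⟨N, D, h, rfl⟩ := h
  obtain ⟨N', D', h', rfl⟩ := h'
  have e := h.cross h'
  have a1 : Associated N N' := associated_of_dvd_dvd
    (h.1.dvd_of_dvd_mul_right ⟨D', e.symm⟩) (h'.1.dvd_of_dvd_mul_right ⟨D, e⟩)
  have a2 : Associated D D' := associated_of_dvd_dvd
    (h.1.symm.dvd_of_dvd_mul_left ⟨N', by rw [e]; ring⟩)
    (h'.1.symm.dvd_of_dvd_mul_left ⟨N, by rw [← e]; ring⟩)
  rw [Polynomial.natDegree_eq_of_degree_eq (degree_eq_degree_of_associated a1),
    Polynomial.natDegree_eq_of_degree_eq (degree_eq_degree_of_associated a2)]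

lemma isXRep_zero : IsXRep (0 : AddMonoid.End W.toAffine.Point) 1 0 :=
  ⟨isCoprime_one_left, Eventually.of_forall fun x y h => by
    show (1 : K[X]).eval x * (xv (0 : W.toAffine.Point)).2 = (0 : K[X]).eval x * _
    simp [xv_zero]⟩

lemma xDeg_zero : XDeg (0 : AddMonoid.End W.toAffine.Point) 0 := ⟨1, 0, isXRep_zero, by simp⟩

lemma isXRep_one : IsXRep (1 : AddMonoid.End W.toAffine.Point) X 1 :=
  ⟨isCoprime_one_right, Eventually.of_forall fun x y h => by
    show (X : K[X]).eval x * (xv (Affine.Point.some x y h)).2 = _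
    simp [xv_some]⟩

lemma xDeg_one : XDeg (1 : AddMonoid.End W.toAffine.Point) 1 := ⟨X, 1, isXRep_one, by simp⟩

lemma IsXRep.neg {f : AddMonoid.End W.toAffine.Point} {N D : K[X]} (h : IsXRep f N D) :
    IsXRep (-f) N D := ⟨h.1, h.2.mono fun x hx y hy => by
  show N.eval x * (xv (-(f (Affine.Point.some x y hy)))).2 =
    D.eval x * (xv (-(f (Affine.Point.some x y hy)))).1
  rw [xv_neg]; exact hx y hy⟩

lemma XDeg.neg {f : AddMonoid.End W.toAffine.Point} {d : ℕ} (h : XDeg f d) : XDeg (-f) d := by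
  obtain ⟨N, D, h, e⟩ := h
  exact ⟨N, D, h.neg, e⟩

section Top

lemma coeff_prod {p q : K[X]} {m n : ℕ} (hp : p.natDegree ≤ m) (hq : q.natDegree ≤ n) :
    (p * q).natDegree ≤ m + n ∧ (p * q).coeff (m + n) = p.coeff m * q.coeff n :=
  ⟨natDegree_mul_le.trans (Nat.add_le_add hp hq), coeff_mul_add_eq_of_natDegree_le hp hq⟩

/-- Degree and top coefficient of a symmetric product of two pairs. -/
lemma triple_top {N₁ D₁ N₂ D₂ : K[X]} {m n : ℕ} (a1 : N₁.natDegree ≤ m) (a2 : D₁.natDegree ≤ m)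
    (b1 : N₂.natDegree ≤ n) (b2 : D₂.natDegree ≤ n) :
    ((N₁ * N₂).natDegree ≤ m + n ∧ (N₁ * N₂).coeff (m + n) = N₁.coeff m * N₂.coeff n) ∧
    ((N₁ * D₂ + N₂ * D₁).natDegree ≤ m + n ∧ (N₁ * D₂ + N₂ * D₁).coeff (m + n) =
      N₁.coeff m * D₂.coeff n + N₂.coeff n * D₁.coeff m) ∧
    ((D₁ * D₂).natDegree ≤ m + n ∧ (D₁ * D₂).coeff (m + n) = D₁.coeff m * D₂.coeff n) := by
  obtain ⟨c1, c2⟩ := coeff_prod a1 b2
  obtain ⟨c3, c4⟩ := coeff_prod b1 a2
  rw [add_comm n m] at c3 c4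
  exact ⟨coeff_prod a1 b1, ⟨(natDegree_add_le _ _).trans (max_le c1 c3), by
    rw [coeff_add, c2, c4]⟩, coeff_prod a2 b2⟩

lemma triple_not_zero {a b c d : K} (h1 : ¬(a = 0 ∧ b = 0)) (h2 : ¬(c = 0 ∧ d = 0)) :
    ¬(a * c = 0 ∧ a * d + c * b = 0 ∧ b * d = 0) := by
  rintro ⟨e1, e2, e3⟩
  rcases mul_eq_zero.1 e1 with rfl | rfl
  · rw [zero_mul, zero_add] at e2
    exact h2 ⟨(mul_eq_zero.1 e2).resolve_right fun e => h1 ⟨rfl, e⟩,
      (mul_eq_zero.1 e3).resolve_left fun e => h1 ⟨rfl, e⟩⟩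
  · rw [zero_mul, add_zero] at e2
    exact h1 ⟨(mul_eq_zero.1 e2).resolve_right fun e => h2 ⟨rfl, e⟩,
      (mul_eq_zero.1 e3).resolve_right fun e => h2 ⟨rfl, e⟩⟩

lemma forms_top (V : WeierstrassCurve K) {S T U : K[X]} {m : ℕ} (hS : S.natDegree ≤ m)
    (hT : T.natDegree ≤ m) (hU : U.natDegree ≤ m) :
    ((sP (V.map C) S T U).natDegree ≤ m + m ∧
      (sP (V.map C) S T U).coeff (m + m) = sP V (S.coeff m) (T.coeff m) (U.coeff m)) ∧
    ((tP (V.map C) S T U).natDegree ≤ m + m ∧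
      (tP (V.map C) S T U).coeff (m + m) = tP V (S.coeff m) (T.coeff m) (U.coeff m)) ∧
    ((uP S T U).natDegree ≤ m + m ∧
      (uP S T U).coeff (m + m) = uP (S.coeff m) (T.coeff m) (U.coeff m)) := by
  obtain ⟨ss, ss'⟩ := coeff_prod hS hS
  obtain ⟨su, su'⟩ := coeff_prod hS hU
  obtain ⟨tu, tu'⟩ := coeff_prod hT hU
  obtain ⟨uu, uu'⟩ := coeff_prod hU hU
  obtain ⟨tt, tt'⟩ := coeff_prod hT hT
  obtain ⟨ts, ts'⟩ := coeff_prod hT hS
  have hs : sP (V.map C) S T U =
      S * S - C V.b₄ * (S * U) - C V.b₆ * (T * U) - C V.b₈ * (U * U) := by simp [sP]; ring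
  have ht : tP (V.map C) S T U =
      C 2 * (T * S) + C V.b₂ * (S * U) + C V.b₄ * (T * U) + C V.b₆ * (U * U) := by
    simp [tP, map_ofNat]; ring
  have hu : uP S T U = T * T - C 4 * (S * U) := by simp [uP, map_ofNat]; ring
  refine ⟨⟨?_, ?_⟩, ⟨?_, ?_⟩, ⟨?_, ?_⟩⟩
  · rw [hs]
    exact (natDegree_sub_le _ _).trans (max_le ((natDegree_sub_le _ _).trans (max_le
      ((natDegree_sub_le _ _).trans (max_le ss ((natDegree_C_mul_le _ _).trans su)))
      ((natDegree_C_mul_le _ _).trans tu))) ((natDegree_C_mul_le _ _).trans uu))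
  · rw [hs]; simp only [coeff_sub, coeff_C_mul, ss', su', tu', uu', sP]; ring
  · rw [ht]
    exact (natDegree_add_le _ _).trans (max_le ((natDegree_add_le _ _).trans (max_le
      ((natDegree_add_le _ _).trans (max_le ((natDegree_C_mul_le _ _).trans ts)
        ((natDegree_C_mul_le _ _).trans su)))
      ((natDegree_C_mul_le _ _).trans tu))) ((natDegree_C_mul_le _ _).trans uu))
  · rw [ht]; simp only [coeff_add, coeff_C_mul, ts', su', tu', uu', tP]; ring
  · rw [hu]; exact (natDegree_sub_le _ _).trans (max_le tt ((natDegree_C_mul_le _ _).trans su))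
  · rw [hu]; simp only [coeff_sub, coeff_C_mul, tt', su', uP]; ring

end Top

/-- **Parallelogram law.** -/
theorem XDeg.parallelogram [W.IsElliptic] {f g : AddMonoid.End W.toAffine.Point} {a b c : ℕ}
    (hf : XDeg f a) (hg : XDeg g b) (hfg : XDeg (f - g) c) :
    ∃ e, XDeg (f + g) e ∧ e + c = 2 * a + 2 * b := by
  obtain ⟨N₁, D₁, h₁, rfl⟩ := hf
  obtain ⟨N₂, D₂, h₂, rfl⟩ := hg
  obtain ⟨Nm, Dm, hm, rfl⟩ := hfg
  set S := N₁ * N₂ with hS
  set T := N₁ * D₂ + N₂ * D₁ with hT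
  set U := D₁ * D₂ with hU
  set s := sP (W.map C) S T U with hs
  set t := tP (W.map C) S T U with ht
  set u := uP S T U with hu
  have hW : ∀ x : K, (W.map C).map (evalRingHom x) = W := fun x => by
    ext <;> simp
  have es : ∀ x, s.eval x = sP W (S.eval x) (T.eval x) (U.eval x) := fun x => by
    have := map_sP (W.map C) (evalRingHom x) S T U
    rw [hW] at this
    simpa [hs] using this.symm
  have et : ∀ x, t.eval x = tP W (S.eval x) (T.eval x) (U.eval x) := fun x => by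
    have := map_tP (W.map C) (evalRingHom x) S T U
    rw [hW] at this
    simpa [ht] using this.symm
  have eu : ∀ x, u.eval x = uP (S.eval x) (T.eval x) (U.eval x) := fun x => by
    have := map_uP (evalRingHom x) S T U
    simpa [hu] using this.symm
  -- the forms at a good abscissa
  have good : ∀ᶠ x in cofinite, ∀ (y : K) (h : W.toAffine.Nonsingular x y),
      ∃ l μ : K, l ≠ 0 ∧ μ ≠ 0 ∧
        s.eval x = l * ((xv ((f + g) (.some x y h))).1 * (xv ((f - g) (.some x y h))).1) ∧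
        t.eval x = l * ((xv ((f + g) (.some x y h))).1 * (xv ((f - g) (.some x y h))).2
          + (xv ((f - g) (.some x y h))).1 * (xv ((f + g) (.some x y h))).2) ∧
        u.eval x = l * ((xv ((f + g) (.some x y h))).2 * (xv ((f - g) (.some x y h))).2) ∧
        Nm.eval x = μ * (xv ((f - g) (.some x y h))).1 ∧
        Dm.eval x = μ * (xv ((f - g) (.some x y h))).2 := by
    refine ((h₁.2.and h₂.2).and hm.2).mono fun x hx y h => ?_
    obtain ⟨l1, l10, e1, e2⟩ := exists_smul_xv h₁.1 (hx.1.1 y h)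
    obtain ⟨l2, l20, e3, e4⟩ := exists_smul_xv h₂.1 (hx.1.2 y h)
    obtain ⟨μ, μ0, e5, e6⟩ := exists_smul_xv hm.1 (hx.2 y h)
    obtain ⟨k, k0, f1, f2, f3⟩ := forms_point (f (.some x y h)) (g (.some x y h))
    refine ⟨(l1 * l2) ^ 2 * k, μ, mul_ne_zero (pow_ne_zero 2 (mul_ne_zero l10 l20)) k0, μ0,
      ?_, ?_, ?_, e5, e6⟩
    · rw [es, hS, hT, hU, eval_mul, eval_add, eval_mul, eval_mul, eval_mul, e1, e2, e3, e4,
        show (f + g) (.some x y h) = f (.some x y h) + g (.some x y h) from rfl,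
        show (f - g) (.some x y h) = f (.some x y h) - g (.some x y h) from rfl,
        mul_assoc _ k, ← f1]
      simp only [sP]; ring
    · rw [et, hS, hT, hU, eval_mul, eval_add, eval_mul, eval_mul, eval_mul, e1, e2, e3, e4,
        show (f + g) (.some x y h) = f (.some x y h) + g (.some x y h) from rfl,
        show (f - g) (.some x y h) = f (.some x y h) - g (.some x y h) from rfl,
        mul_assoc _ k, ← f2]
      simp only [tP]; ring
    · rw [eu, hS, hT, hU, eval_mul, eval_add, eval_mul, eval_mul, eval_mul, e1, e2, e3, e4,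
        show (f + g) (.some x y h) = f (.some x y h) + g (.some x y h) from rfl,
        show (f - g) (.some x y h) = f (.some x y h) - g (.some x y h) from rfl,
        mul_assoc _ k, ← f3]
      simp only [uP]; ring
  -- the quadratic satisfied by `x (f - g)`
  have hq : Nm ^ 2 * u - Nm * Dm * t + Dm ^ 2 * s = 0 := by
    refine eq_of_eventually_eval (good.mono fun x hx => ?_)
    obtain ⟨y, h⟩ := exists_y (W := W) x
    obtain ⟨l, μ, -, -, f1, f2, f3, f4, f5⟩ := hx y h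
    simp only [eval_add, eval_sub, eval_mul, eval_pow, eval_zero, f1, f2, f3, f4, f5]
    ring
  obtain ⟨Np, Dp, p1, p2, p3⟩ : ∃ Np Dp, s = Nm * Np ∧ t = Nm * Dp + Dm * Np ∧ u = Dm * Dp := by
    by_cases hD : Dm = 0
    · subst hD
      obtain ⟨v, hv⟩ := (isCoprime_zero_right.1 hm.1)
      have hu0 : u = 0 := by
        have : Nm ^ 2 * u = 0 := by linear_combination hq
        exact (mul_eq_zero.1 this).resolve_left (pow_ne_zero 2 (hv ▸ v.ne_zero))
      exact ⟨↑v⁻¹ * s, ↑v⁻¹ * t, by rw [← hv]; simp, by rw [← hv]; simp, by rw [hu0]; simp⟩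
    by_cases hN : Nm = 0
    · subst hN
      obtain ⟨v, hv⟩ := (isCoprime_zero_left.1 hm.1)
      have hs0 : s = 0 := by
        have : Dm ^ 2 * s = 0 := by linear_combination hq
        exact (mul_eq_zero.1 this).resolve_left (pow_ne_zero 2 (hv ▸ v.ne_zero))
      exact ⟨↑v⁻¹ * t, ↑v⁻¹ * u, by rw [hs0]; simp, by rw [← hv]; simp, by rw [← hv]; simp⟩
    obtain ⟨Dp, hDp⟩ : Dm ∣ u := (hm.1.symm.pow_right (n := 2)).dvd_of_dvd_mul_left
      ⟨Nm * t - Dm * s, by linear_combination hq⟩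
    obtain ⟨Np, hNp⟩ : Nm ∣ s := (hm.1.pow_right (n := 2)).dvd_of_dvd_mul_left
      ⟨Dm * t - Nm * u, by linear_combination hq⟩
    refine ⟨Np, Dp, hNp, ?_, hDp⟩
    apply mul_left_cancel₀ (mul_ne_zero hN hD)
    linear_combination -hq + Nm ^ 2 * hDp + Dm ^ 2 * hNp
  have hcp : IsCoprime Np Dp := by
    rw [Polynomial.isCoprime_iff_aeval_ne_zero_of_isAlgClosed _ K]
    intro x
    by_contra hh
    push Not at hh
    simp only [coe_aeval_eq_eval] at hh
    refine forms_ne_zero W W.isUnit_Δ (s := S.eval x) (t := T.eval x) (u := U.eval x) ?_ ⟨?_, ?_, ?_⟩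
    · intro h0
      refine triple_not_zero (eval_not_both h₁.1 x) (eval_not_both h₂.1 x) ⟨?_, ?_, ?_⟩
      · simpa [hS] using h0.1
      · simpa [hT] using h0.2.1
      · simpa [hU] using h0.2.2
    · rw [← es, p1, eval_mul, hh.1, mul_zero]
    · rw [← et, p2, eval_add, eval_mul, eval_mul, hh.1, hh.2, mul_zero, mul_zero, add_zero]
    · rw [← eu, p3, eval_mul, hh.2, mul_zero]
  refine ⟨max Np.natDegree Dp.natDegree, ⟨Np, Dp, ⟨hcp, good.mono fun x hx y h => ?_⟩, rfl⟩, ?_⟩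
  · obtain ⟨l, μ, l0, μ0, f1, f2, f3, f4, f5⟩ := hx y h
    rw [p1, eval_mul, f4] at f1
    rw [p2, eval_add, eval_mul, eval_mul, f4, f5] at f2
    rw [p3, eval_mul, f5] at f3
    set A := (xv ((f - g) (.some x y h))).1
    set B := (xv ((f - g) (.some x y h))).2
    set X' := (xv ((f + g) (.some x y h))).1
    set Z' := (xv ((f + g) (.some x y h))).2
    have ha : A * (μ * Np.eval x - l * X') = 0 := by linear_combination f1
    have hb : B * (μ * Dp.eval x - l * Z') = 0 := by linear_combination f3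
    have hab : A * (μ * Dp.eval x - l * Z') + B * (μ * Np.eval x - l * X') = 0 := by
      linear_combination f2
    have hv : ¬(A = 0 ∧ B = 0) := xv_ne _
    have hboth : μ * Np.eval x - l * X' = 0 ∧ μ * Dp.eval x - l * Z' = 0 := by
      by_contra hh
      exact triple_not_zero hv hh ⟨ha, by linear_combination hab, hb⟩
    refine mul_left_cancel₀ μ0 ?_
    linear_combination Z' * hboth.1 - X' * hboth.2
  · -- degrees
    set a := max N₁.natDegree D₁.natDegree
    set b := max N₂.natDegree D₂.natDegree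
    set c := max Nm.natDegree Dm.natDegree
    set e := max Np.natDegree Dp.natDegree
    obtain ⟨⟨dS, cS⟩, ⟨dT, cT⟩, ⟨dU, cU⟩⟩ := triple_top (N₁ := N₁) (D₁ := D₁) (N₂ := N₂) (D₂ := D₂)
      (m := a) (n := b) (le_max_left _ _) (le_max_right _ _) (le_max_left _ _) (le_max_right _ _)
    obtain ⟨⟨ds, cs⟩, ⟨dt, ct⟩, ⟨du, cu⟩⟩ := forms_top W (S := S) (T := T) (U := U) dS dT dU
    have htop : ¬(s.coeff (a + b + (a + b)) = 0 ∧ t.coeff (a + b + (a + b)) = 0 ∧
        u.coeff (a + b + (a + b)) = 0) := by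
      rw [hs, ht, hu, cs, ct, cu]
      exact forms_ne_zero W W.isUnit_Δ (by
        rw [hS, hT, hU, cS, cT, cU]
        exact triple_not_zero (coeff_top_not_both h₁.1) (coeff_top_not_both h₂.1))
    obtain ⟨⟨dS', cS'⟩, ⟨dT', cT'⟩, ⟨dU', cU'⟩⟩ := triple_top (N₁ := Nm) (D₁ := Dm) (N₂ := Np) (D₂ := Dp)
      (m := c) (n := e) (le_max_left _ _) (le_max_right _ _) (le_max_left _ _) (le_max_right _ _)
    have p2' : t = Nm * Dp + Np * Dm := by rw [p2]; ring
    rw [← p1] at dS' cS'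
    rw [← p2'] at dT' cT'
    rw [← p3] at dU' cU'
    have htop' : ¬(s.coeff (c + e) = 0 ∧ t.coeff (c + e) = 0 ∧ u.coeff (c + e) = 0) := by
      rw [cS', cT', cU']
      exact triple_not_zero (coeff_top_not_both hm.1) (coeff_top_not_both hcp)
    rcases lt_trichotomy (c + e) (a + b + (a + b)) with hlt | heq | hgt
    · exact absurd ⟨coeff_eq_zero_of_natDegree_lt (dS'.trans_lt hlt),
        coeff_eq_zero_of_natDegree_lt (dT'.trans_lt hlt),
        coeff_eq_zero_of_natDegree_lt (dU'.trans_lt hlt)⟩ htop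
    · omega
    · exact absurd ⟨coeff_eq_zero_of_natDegree_lt (ds.trans_lt hgt),
        coeff_eq_zero_of_natDegree_lt (dt.trans_lt hgt),
        coeff_eq_zero_of_natDegree_lt (du.trans_lt hgt)⟩ htop'

/-- Integer valued degree. -/
def XDegZ (f : AddMonoid.End W.toAffine.Point) (d : ℤ) : Prop := ∃ n : ℕ, XDeg f n ∧ d = n

lemma XDegZ.nonneg {f : AddMonoid.End W.toAffine.Point} {d : ℤ} (h : XDegZ f d) : 0 ≤ d := by
  obtain ⟨n, -, rfl⟩ := h; omega

lemma XDegZ.unique [W.IsElliptic] {f : AddMonoid.End W.toAffine.Point} {d d' : ℤ}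
    (h : XDegZ f d) (h' : XDegZ f d') : d = d' := by
  obtain ⟨n, hn, rfl⟩ := h
  obtain ⟨n', hn', rfl⟩ := h'
  rw [hn.unique hn']

/-- A function satisfying the parallelogram law is quadratic along arithmetic progressions. -/
lemma line_of_parallelogram {G : Type*} [AddCommGroup G] (Q : G → ℤ → Prop)
    (law : ∀ φ ψ u b v, Q φ u → Q ψ b → Q (φ - ψ) v → Q (φ + ψ) (2 * u + 2 * b - v))
    (law' : ∀ φ ψ u b v, Q φ u → Q ψ b → Q (φ + ψ) v → Q (φ - ψ) (2 * u + 2 * b - v))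
    {f g : G} {a b c : ℤ} (hf : Q f a) (hg : Q g b) (hfg : Q (f + g) c) (n : ℤ) :
    Q (f + n • g) (a + n * (c - a - b) + n ^ 2 * b) := by
  suffices ∀ n : ℤ, Q (f + n • g) (a + n * (c - a - b) + n ^ 2 * b) ∧
      Q (f + (n + 1) • g) (a + (n + 1) * (c - a - b) + (n + 1) ^ 2 * b) from (this n).1
  intro n
  induction n using Int.induction_on with
  | zero =>
    constructor
    · convert hf using 1
      · rw [zero_zsmul, add_zero]
      · ring
    · convert hfg using 1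
      · rw [zero_add, one_zsmul]
      · ring
  | succ k ih =>
    refine ⟨ih.2, ?_⟩
    have h := law _ g _ b (a + (k : ℤ) * (c - a - b) + (k : ℤ) ^ 2 * b) ih.2 hg (by
      rw [show f + ((k : ℤ) + 1) • g - g = f + (k : ℤ) • g by rw [add_zsmul, one_zsmul]; abel]
      exact ih.1)
    convert h using 1
    · rw [add_zsmul g ((k : ℤ) + 1), one_zsmul, add_assoc]
    · ring
  | pred k ih =>
    refine ⟨?_, by rw [sub_add_cancel]; exact ih.1⟩
    have h := law' _ g _ b (a + (-(k : ℤ) + 1) * (c - a - b) + (-(k : ℤ) + 1) ^ 2 * b) ih.1 hg (by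
      rw [show f + -(k : ℤ) • g + g = f + (-(k : ℤ) + 1) • g by rw [add_zsmul, one_zsmul]; abel]
      exact ih.2)
    convert h using 1
    · rw [sub_zsmul, one_zsmul]; abel
    · ring

/-- Degrees along an arithmetic progression of endomorphisms. -/
theorem XDegZ.line [W.IsElliptic] {f g : AddMonoid.End W.toAffine.Point} {a b c : ℤ}
    (hf : XDegZ f a) (hg : XDegZ g b) (hfg : XDegZ (f + g) c) (n : ℤ) :
    XDegZ (f + n • g) (a + n * (c - a - b) + n ^ 2 * b) := by
  refine line_of_parallelogram (G := AddMonoid.End W.toAffine.Point) XDegZ ?_ ?_ hf hg hfg n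
  · rintro φ ψ u b v ⟨u', hu', rfl⟩ ⟨b', hb', rfl⟩ ⟨v', hv', rfl⟩
    obtain ⟨e, he, hee⟩ := hu'.parallelogram hb' hv'
    exact ⟨e, he, by omega⟩
  · rintro φ ψ u b v ⟨u', hu', rfl⟩ ⟨b', hb', rfl⟩ ⟨v', hv', rfl⟩
    obtain ⟨e, he, hee⟩ := hu'.parallelogram hb'.neg (c := v') (by rwa [sub_neg_eq_add])
    exact ⟨e, by rwa [← sub_eq_add_neg] at he, by omega⟩

end Fermat.Agent.EC.Degree
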